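import Fermat.Agent.GalRep.Density.Frobenius
import Fermat.Prelude.Def_GaloisRep_Adic

/-!
Two-dimensional representations with equal Frobenius characteristic polynomials outside a finite
set of primes have equal characteristic polynomials everywhere.
-/

set_option autoImplicit false

namespace FermatAgent.GalRep

noncomputable section

local notation "Qb" => AlgebraicClosure ℚ
local notation "GQ" => AlgebraicClosure ℚ ≃ₐ[ℚ] AlgebraicClosure ℚ

open Polynomial

theorem matrix_charpoly_pow_eq {R : Type*} [CommRing R] (A B : Matrix (Fin 2) (Fin 2) R)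
    (h : A.charpoly = B.charpoly) (m : ℕ) : (A ^ m).charpoly = (B ^ m).charpoly := by
  nontriviality R
  have hd : A.det = B.det := by
    rw [Matrix.det_eq_sign_charpoly_coeff, Matrix.det_eq_sign_charpoly_coeff, h]
  have ht : A.trace = B.trace := by
    rw [Matrix.trace_eq_neg_charpoly_coeff, Matrix.trace_eq_neg_charpoly_coeff, h]
  have sq : ∀ M : Matrix (Fin 2) (Fin 2) R, M * M = M.trace • M - M.det • 1 := by
    intro M
    ext i j
    fin_cases i <;> fin_cases j <;>
      simp [Matrix.mul_apply, Fin.sum_univ_two, Matrix.trace_fin_two, Matrix.det_fin_two] <;> ring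
  have htr : ∀ n, (A ^ n).trace = (B ^ n).trace := by
    intro n
    induction n using Nat.twoStepInduction with
    | zero => simp
    | one => simpa using ht
    | more n ih1 ih2 =>
      have e : ∀ M : Matrix (Fin 2) (Fin 2) R,
          (M ^ (n + 2)).trace = M.trace * (M ^ (n + 1)).trace - M.det * (M ^ n).trace := by
        intro M
        rw [pow_add, pow_two, sq M, mul_sub, mul_smul_comm, mul_smul_comm, mul_one, ← pow_succ,
          Matrix.trace_sub, Matrix.trace_smul, Matrix.trace_smul, smul_eq_mul, smul_eq_mul]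
      rw [e, e, ih1, ih2, ht, hd]
  rw [Matrix.charpoly_fin_two, Matrix.charpoly_fin_two, htr, Matrix.det_pow, Matrix.det_pow, hd]

/-- Characteristic polynomials of powers are determined by the characteristic polynomial (rank two). -/
theorem charpoly_pow_eq_of_charpoly_eq {R : Type*} [CommRing R] {V W : Type*}
    [AddCommGroup V] [Module R V] [Module.Free R V] [Module.Finite R V]
    [AddCommGroup W] [Module R W] [Module.Free R W] [Module.Finite R W]
    (hV : Module.finrank R V = 2) (hW : Module.finrank R W = 2)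
    {f : Module.End R V} {g : Module.End R W} (h : f.charpoly = g.charpoly) (m : ℕ) :
    (f ^ m).charpoly = (g ^ m).charpoly := by
  nontriviality R
  let bV := Module.finBasisOfFinrankEq R V hV
  let bW := Module.finBasisOfFinrankEq R W hW
  have hf : ∀ e : Module.End R V, e.charpoly = (LinearMap.toMatrixAlgEquiv bV e).charpoly :=
    fun e => (LinearMap.charpoly_toMatrix e bV).symm
  have hg : ∀ e : Module.End R W, e.charpoly = (LinearMap.toMatrixAlgEquiv bW e).charpoly :=
    fun e => (LinearMap.charpoly_toMatrix e bW).symm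
  rw [hf, hg] at h
  rw [hf, hg, map_pow, map_pow]
  exact matrix_charpoly_pow_eq _ _ h m

theorem charpoly_eq_of_frobenius_finiteLevel {R : Type} [CommRing R] [Nontrivial R] {V W : Type}
    [AddCommGroup V] [Module R V] [Module.Free R V] [Module.Finite R V]
    [AddCommGroup W] [Module R W] [Module.Free R W] [Module.Finite R W]
    (hV : Module.finrank R V = 2) (hW : Module.finrank R W = 2)
    (r : GQ →* Module.End R V) (s : GQ →* Module.End R W)
    (hr : GaloisFactorsThroughFiniteLevel r) (hs : GaloisFactorsThroughFiniteLevel s)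
    {S : Set ℕ} (hS : S.Finite)
    (h : ∀ ℓ : ℕ, ℓ.Prime → ℓ ∉ S → ∀ A : ValuationSubring Qb, A.LiesOverPrime ℓ →
      ∀ τ : GQ, A.IsFrobeniusAt τ ℓ → (r τ).charpoly = (s τ).charpoly) (σ : GQ) :
    (r σ).charpoly = (s σ).charpoly := by
  obtain ⟨Lr, hLr, hr1⟩ := hr
  obtain ⟨Ls, hLs, hs1⟩ := hs
  have hrs : GaloisFactorsThroughFiniteLevel (r.prod s) :=
    ⟨Lr ⊔ Ls, IntermediateField.finiteDimensional_sup Lr Ls, fun σ hσ => Prod.ext
      (hr1 σ fun x hx => hσ x (le_sup_left (b := Ls) hx))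
      (hs1 σ fun x hx => hσ x (le_sup_right (a := Lr) hx))⟩
  exact forall_of_frobenius (r.prod s) hrs hS (fun x => x.1.charpoly = x.2.charpoly)
    (fun x m hx => charpoly_pow_eq_of_charpoly_eq hV hW hx m) h σ

theorem residual_charpoly_eq_of_frobenius {k : Type} [Field k] (ρ₁ ρ₂ : ResidualGaloisRep k)
    {S : Set ℕ} (hS : S.Finite)
    (h : ∀ ℓ : ℕ, ℓ.Prime → ℓ ∉ S → ∀ A : ValuationSubring Qb, A.LiesOverPrime ℓ →
      ∀ τ : GQ, A.IsFrobeniusAt τ ℓ → (ρ₁.ρ τ).charpoly = (ρ₂.ρ τ).charpoly) (σ : GQ) :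
    (ρ₁.ρ σ).charpoly = (ρ₂.ρ σ).charpoly :=
  charpoly_eq_of_frobenius_finiteLevel ρ₁.finrank_eq ρ₂.finrank_eq ρ₁.ρ ρ₂.ρ
    ρ₁.factorsThroughFiniteLevel ρ₂.factorsThroughFiniteLevel hS h σ

/-- An adic representation reduced modulo an ideal, in a basis. -/
def matrixModHom {R : Type} [CommRing R] [IsLocalRing R] (ρ : GaloisRepAdic R) (I : Ideal R) :
    GQ →* Module.End (R ⧸ I) (Fin 2 → R ⧸ I) :=
  (Matrix.toLinAlgEquiv' : Matrix (Fin 2) (Fin 2) (R ⧸ I) ≃ₐ[R ⧸ I] _).toAlgHom.toMonoidHom.comp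
    (((Ideal.Quotient.mk I).mapMatrix.toMonoidHom).comp
      ((LinearMap.toMatrixAlgEquiv
        (Module.finBasisOfFinrankEq R ρ.V ρ.finrank_eq)).toAlgHom.toMonoidHom.comp ρ.ρ))

theorem matrixModHom_factors {R : Type} [CommRing R] [IsLocalRing R] (ρ : GaloisRepAdic R)
    (n : ℕ) :
    GaloisFactorsThroughFiniteLevel (matrixModHom ρ (IsLocalRing.maximalIdeal R ^ n)) := by
  obtain ⟨L, hL, h1⟩ := ρ.isAdicContinuous n
  refine ⟨L, hL, fun σ hσ => ?_⟩
  let b := Module.finBasisOfFinrankEq R ρ.V ρ.finrank_eq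
  have key : (Ideal.Quotient.mk (IsLocalRing.maximalIdeal R ^ n)).mapMatrix
      (LinearMap.toMatrixAlgEquiv b (ρ.ρ σ)) = 1 := by
    rw [← map_one (Ideal.Quotient.mk (IsLocalRing.maximalIdeal R ^ n)).mapMatrix,
      ← map_one (LinearMap.toMatrixAlgEquiv b)]
    ext i j
    rw [RingHom.mapMatrix_apply, RingHom.mapMatrix_apply, Matrix.map_apply, Matrix.map_apply,
      Ideal.Quotient.mk_eq_mk_iff_sub_mem, LinearMap.toMatrixAlgEquiv_apply,
      LinearMap.toMatrixAlgEquiv_apply, Module.End.one_apply, ← Finsupp.sub_apply, ← map_sub]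
    refine Submodule.smul_induction_on (p := fun x => b.repr x i ∈ IsLocalRing.maximalIdeal R ^ n)
      (h1 σ hσ (b j)) ?_ ?_
    · intro a ha v _
      rw [map_smul, Finsupp.smul_apply, smul_eq_mul]
      exact Ideal.mul_mem_right _ _ ha
    · intro x y hx hy
      rw [map_add, Finsupp.add_apply]
      exact add_mem hx hy
  show Matrix.toLinAlgEquiv' _ = 1
  exact (congrArg _ key).trans (map_one _)

theorem matrixModHom_charpoly {R : Type} [CommRing R] [IsLocalRing R] (ρ : GaloisRepAdic R)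
    (I : Ideal R) [Nontrivial (R ⧸ I)] (σ : GQ) :
    (matrixModHom ρ I σ).charpoly = (ρ.ρ σ).charpoly.map (Ideal.Quotient.mk I) := by
  rw [← LinearMap.charpoly_toMatrix (ρ.ρ σ) (Module.finBasisOfFinrankEq R ρ.V ρ.finrank_eq),
    ← Matrix.charpoly_map]
  exact Matrix.charpoly_toLin' _

theorem adic_charpoly_eq_of_frobenius {R : Type} [CommRing R] [IsLocalRing R]
    [IsHausdorff (IsLocalRing.maximalIdeal R) R] (ρ₁ ρ₂ : GaloisRepAdic R)
    {S : Set ℕ} (hS : S.Finite)
    (h : ∀ ℓ : ℕ, ℓ.Prime → ℓ ∉ S → ∀ A : ValuationSubring Qb, A.LiesOverPrime ℓ →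
      ∀ τ : GQ, A.IsFrobeniusAt τ ℓ → (ρ₁.ρ τ).charpoly = (ρ₂.ρ τ).charpoly) (σ : GQ) :
    (ρ₁.ρ σ).charpoly = (ρ₂.ρ σ).charpoly := by
  refine Polynomial.ext fun i => ?_
  rw [← sub_eq_zero]
  refine IsHausdorff.haus (I := IsLocalRing.maximalIdeal R) inferInstance _ fun n => ?_
  rw [SModEq.zero, smul_eq_mul, Ideal.mul_top]
  rcases Nat.eq_zero_or_pos n with rfl | hn
  · simp
  have : Nontrivial (R ⧸ IsLocalRing.maximalIdeal R ^ n) :=
    Ideal.Quotient.nontrivial_iff.mpr fun h =>
      Ideal.IsMaximal.ne_top inferInstance (top_le_iff.mp (h ▸ Ideal.pow_le_self hn.ne'))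
  have key := charpoly_eq_of_frobenius_finiteLevel (R := R ⧸ IsLocalRing.maximalIdeal R ^ n)
    (by simp) (by simp) (matrixModHom ρ₁ _) (matrixModHom ρ₂ _)
    (matrixModHom_factors ρ₁ n) (matrixModHom_factors ρ₂ n) hS
    (fun ℓ hℓ hℓS A hA τ hτ => by
      rw [matrixModHom_charpoly, matrixModHom_charpoly, h ℓ hℓ hℓS A hA τ hτ]) σ
  rw [matrixModHom_charpoly, matrixModHom_charpoly] at key
  rw [← Ideal.Quotient.mk_eq_mk_iff_sub_mem]
  simpa using congrArg (fun P => P.coeff i) key

end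

end FermatAgent.GalRep
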