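import Fermat.Agent.GalRep.Density.Burnside
import Fermat.Agent.GalRep.Density.Charpoly

/-!
Brauer–Nesbitt and Carayol: an absolutely irreducible representation is determined by its traces.
-/

set_option autoImplicit false

namespace FermatAgent.GalRep

noncomputable section

local notation "Qb" => AlgebraicClosure ℚ
local notation "GQ" => AlgebraicClosure ℚ ≃ₐ[ℚ] AlgebraicClosure ℚ

open scoped TensorProduct

variable {R : Type} [CommRing R] {ι : Type} [Fintype ι] [DecidableEq ι]

/-- The matrices of a representation in a basis, as a monoid homomorphism. -/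
def matrixHom {G : Type} [Monoid G] {V : Type} [AddCommGroup V] [Module R V]
    (b : Module.Basis ι R V) (r : G →* Module.End R V) : G →* Matrix ι ι R :=
  (LinearMap.toMatrixAlgEquiv b).toAlgHom.toMonoidHom.comp r

theorem matrixHom_apply {G : Type} [Monoid G] {V : Type} [AddCommGroup V] [Module R V]
    (b : Module.Basis ι R V) (r : G →* Module.End R V) (g : G) :
    matrixHom b r g = LinearMap.toMatrixAlgEquiv b (r g) := rfl

theorem span_range_matrixHom {G : Type} [Monoid G] {V : Type} [AddCommGroup V] [Module R V]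
    (b : Module.Basis ι R V) (r : G →* Module.End R V) :
    Submodule.span R (Set.range (matrixHom b r)) = ⊤ ↔
      Submodule.span R (Set.range r) = ⊤ := by
  have : Submodule.span R (Set.range (matrixHom b r)) = (Submodule.span R (Set.range r)).map
      (LinearMap.toMatrixAlgEquiv b).toLinearEquiv.toLinearMap := by
    rw [Submodule.map_span, ← Set.range_comp]
    rfl
  rw [this, Submodule.map_eq_top_iff]

theorem matrixHom_baseChange {K : Type} [CommRing K] [Algebra R K] {G : Type} [Monoid G]
    {V : Type} [AddCommGroup V] [Module R V] (b : Module.Basis ι R V)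
    (r : G →* Module.End R V) (r' : G →* Module.End K (K ⊗[R] V))
    (hr : ∀ g, r' g = (r g).baseChange K) (g : G) :
    matrixHom (b.baseChange K) r' g = (matrixHom b r g).map (algebraMap R K) := by
  rw [matrixHom_apply, matrixHom_apply, hr]
  ext i j
  simp [LinearMap.toMatrixAlgEquiv_apply, Algebra.smul_def]

/-- An absolutely irreducible residual representation spans all endomorphisms. -/
theorem span_range_eq_top_of_isAbsolutelyIrreducible {k : Type} [Field k]
    (ρ : ResidualGaloisRep k) (hρ : ρ.IsAbsolutelyIrreducible) :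
    Submodule.span k (Set.range ρ.ρ) = ⊤ := by
  let b := Module.finBasisOfFinrankEq k ρ.V ρ.finrank_eq
  have : Nontrivial (AlgebraicClosure k ⊗[k] ρ.V) :=
    Module.nontrivial_of_finrank_eq_succ (R := AlgebraicClosure k)
      (ρ.baseChange (AlgebraicClosure k)).finrank_eq
  have hbig := (span_range_matrixHom (b.baseChange (AlgebraicClosure k)) _).mpr
    (burnside_span_range_eq_top (ρ.baseChange (AlgebraicClosure k)).ρ hρ)
  rw [← span_range_matrixHom b]
  by_contra hne
  obtain ⟨f, hf0, hf⟩ := Submodule.exists_le_ker_of_lt_top _ (lt_top_iff_ne_top.mpr hne)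
  let F : Matrix (Fin 2) (Fin 2) (AlgebraicClosure k) →ₗ[AlgebraicClosure k] AlgebraicClosure k :=
    { toFun := fun M => ∑ i, ∑ j, M i j * algebraMap k _ (f (Matrix.single i j 1))
      map_add' := fun M N => by simp [add_mul, Finset.sum_add_distrib]
      map_smul' := fun c M => by simp [Fin.sum_univ_two]; ring }
  have hF : ∀ M : Matrix (Fin 2) (Fin 2) k,
      F (M.map (algebraMap k (AlgebraicClosure k))) = algebraMap k _ (f M) := by
    intro M
    conv_rhs => rw [Matrix.matrix_eq_sum_single M]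
    simp only [F, LinearMap.coe_mk, AddHom.coe_mk, map_sum]
    refine Finset.sum_congr rfl fun i _ => Finset.sum_congr rfl fun j _ => ?_
    rw [Matrix.map_apply, ← map_mul, ← smul_eq_mul, ← map_smul, Matrix.smul_single, smul_eq_mul,
      mul_one]
  have hker : ⊤ ≤ LinearMap.ker F := by
    rw [← hbig, Submodule.span_le]
    rintro _ ⟨σ, rfl⟩
    rw [SetLike.mem_coe, LinearMap.mem_ker,
      matrixHom_baseChange b ρ.ρ (ρ.baseChange (AlgebraicClosure k)).ρ (fun _ => rfl), hF,
      show f (matrixHom b ρ.ρ σ) = 0 from hf (Submodule.subset_span ⟨σ, rfl⟩), map_zero]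
  refine hf0 (LinearMap.ext fun M => ?_)
  apply (algebraMap k (AlgebraicClosure k)).injective
  rw [← hF, LinearMap.zero_apply, map_zero]
  exact hker trivial

/-- A representation with absolutely irreducible reduction spans all endomorphisms. -/
theorem adic_span_range_eq_top [IsLocalRing R] (ρ : GaloisRepAdic R)
    (h : ρ.residual.IsAbsolutelyIrreducible) : Submodule.span R (Set.range ρ.ρ) = ⊤ := by
  let b := Module.finBasisOfFinrankEq R ρ.V ρ.finrank_eq
  have hres := (span_range_matrixHom (b.baseChange (IsLocalRing.ResidueField R)) ρ.residual.ρ).mpr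
    (span_range_eq_top_of_isAbsolutelyIrreducible ρ.residual h)
  rw [← span_range_matrixHom b]
  refine top_le_iff.mp (Submodule.le_of_le_smul_of_le_jacobson_bot (I := IsLocalRing.maximalIdeal R)
    Module.Finite.fg_top (IsLocalRing.jacobson_eq_maximalIdeal ⊥ bot_ne_top).ge ?_)
  intro M _
  have hlift : ∀ M' ∈ Submodule.span (IsLocalRing.ResidueField R)
      (Set.range (matrixHom (b.baseChange (IsLocalRing.ResidueField R)) ρ.residual.ρ)),
      ∃ N ∈ Submodule.span R (Set.range (matrixHom b ρ.ρ)), N.map (IsLocalRing.residue R) = M' := by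
    intro M' hM'
    induction hM' using Submodule.span_induction with
    | mem x hx =>
      obtain ⟨σ, rfl⟩ := hx
      refine ⟨_, Submodule.subset_span ⟨σ, rfl⟩, ?_⟩
      rw [matrixHom_baseChange b ρ.ρ ρ.residual.ρ (fun _ => rfl)]
      rfl
    | zero => exact ⟨0, zero_mem _, Matrix.map_zero _ (map_zero _)⟩
    | add x y _ _ hx hy =>
      obtain ⟨N, hN, rfl⟩ := hx
      obtain ⟨N', hN', rfl⟩ := hy
      exact ⟨N + N', add_mem hN hN', Matrix.map_add _ (map_add _) _ _⟩
    | smul c x _ hx =>
      obtain ⟨N, hN, rfl⟩ := hx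
      obtain ⟨c', rfl⟩ := IsLocalRing.residue_surjective c
      exact ⟨c' • N, Submodule.smul_mem _ _ hN, by ext i j; simp⟩
  obtain ⟨N, hN, hNM⟩ := hlift (M.map (IsLocalRing.residue R)) (hres ▸ Submodule.mem_top)
  rw [← add_sub_cancel N M]
  refine add_mem (Submodule.mem_sup_left hN) (Submodule.mem_sup_right ?_)
  rw [Matrix.matrix_eq_sum_single (M - N)]
  refine sum_mem fun i _ => sum_mem fun j _ => ?_
  rw [← mul_one ((M - N) i j), ← smul_eq_mul, ← Matrix.smul_single]
  refine Submodule.smul_mem_smul ?_ trivial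
  rw [← IsLocalRing.residue_eq_zero_iff, Matrix.sub_apply, map_sub, sub_eq_zero]
  exact (congrFun (congrFun hNM i) j).symm

/-- A representation spanning all endomorphisms is determined by its traces. -/
theorem exists_linearEquiv_of_trace_eq [IsLocalRing R] {G : Type} [Monoid G] {V W : Type}
    [AddCommGroup V] [Module R V] [AddCommGroup W] [Module R W] [Nonempty ι]
    (bV : Module.Basis ι R V) (bW : Module.Basis ι R W)
    (r : G →* Module.End R V) (s : G →* Module.End R W)
    (hspan : Submodule.span R (Set.range r) = ⊤)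
    (htr : ∀ g, LinearMap.trace R V (r g) = LinearMap.trace R W (s g)) :
    ∃ e : V ≃ₗ[R] W, ∀ g x, e (r g x) = s g (e x) := by
  obtain ⟨P, hP, hPg⟩ := exists_conj_of_trace_eq (matrixHom bV r) (matrixHom bW s)
    ((span_range_matrixHom bV r).mpr hspan) fun g => by
      have := htr g
      rw [LinearMap.trace_eq_matrix_trace R bV, LinearMap.trace_eq_matrix_trace R bW] at this
      exact this
  obtain ⟨u, rfl⟩ := hP
  refine ⟨LinearEquiv.ofLinearMap (Matrix.toLin bV bW (u : Matrix ι ι R))
    (Matrix.toLin bW bV ((u⁻¹ : (Matrix ι ι R)ˣ) : Matrix ι ι R)) ?_ ?_, fun g x => ?_⟩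
  · rw [← Matrix.toLin_mul, Units.mul_inv, Matrix.toLin_one]
  · rw [← Matrix.toLin_mul, Units.inv_mul, Matrix.toLin_one]
  · show (Matrix.toLin bV bW (u : Matrix ι ι R) ∘ₗ r g) x =
      (s g ∘ₗ Matrix.toLin bV bW (u : Matrix ι ι R)) x
    congr 1
    apply (LinearMap.toMatrix bV bW).injective
    rw [LinearMap.toMatrix_comp bV bV bW, LinearMap.toMatrix_comp bV bW bW,
      LinearMap.toMatrix_toLin]
    exact hPg g

theorem residual_isEquiv_of_trace_eq {k : Type} [Field k] (ρ₁ ρ₂ : ResidualGaloisRep k)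
    (h₁ : ρ₁.IsAbsolutelyIrreducible)
    (h : ∀ σ : GQ, LinearMap.trace k ρ₁.V (ρ₁.ρ σ) = LinearMap.trace k ρ₂.V (ρ₂.ρ σ)) :
    ρ₁.IsEquiv ρ₂ := by
  obtain ⟨e, he⟩ := exists_linearEquiv_of_trace_eq
    (Module.finBasisOfFinrankEq k ρ₁.V ρ₁.finrank_eq)
    (Module.finBasisOfFinrankEq k ρ₂.V ρ₂.finrank_eq) ρ₁.ρ ρ₂.ρ
    (span_range_eq_top_of_isAbsolutelyIrreducible ρ₁ h₁) h
  exact ⟨⟨e, he⟩⟩

theorem trace_eq_of_charpoly_eq [Nontrivial R] {V W : Type} [AddCommGroup V] [Module R V]
    [AddCommGroup W] [Module R W] [Nonempty ι] [Module.Free R V] [Module.Finite R V]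
    [Module.Free R W] [Module.Finite R W]
    (bV : Module.Basis ι R V) (bW : Module.Basis ι R W) {f : Module.End R V}
    {g : Module.End R W} (h : f.charpoly = g.charpoly) :
    LinearMap.trace R V f = LinearMap.trace R W g := by
  rw [← LinearMap.charpoly_toMatrix f bV, ← LinearMap.charpoly_toMatrix g bW] at h
  rw [LinearMap.trace_eq_matrix_trace R bV, LinearMap.trace_eq_matrix_trace R bW,
    Matrix.trace_eq_neg_charpoly_coeff, Matrix.trace_eq_neg_charpoly_coeff, h]

theorem residual_isEquiv_of_frobenius {k : Type} [Field k] (ρ₁ ρ₂ : ResidualGaloisRep k)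
    (h₁ : ρ₁.IsAbsolutelyIrreducible) {S : Set ℕ} (hS : S.Finite)
    (h : ∀ ℓ : ℕ, ℓ.Prime → ℓ ∉ S → ∀ A : ValuationSubring Qb, A.LiesOverPrime ℓ →
      ∀ τ : GQ, A.IsFrobeniusAt τ ℓ → (ρ₁.ρ τ).charpoly = (ρ₂.ρ τ).charpoly) :
    ρ₁.IsEquiv ρ₂ :=
  residual_isEquiv_of_trace_eq ρ₁ ρ₂ h₁ fun σ => trace_eq_of_charpoly_eq
    (Module.finBasisOfFinrankEq k ρ₁.V ρ₁.finrank_eq)
    (Module.finBasisOfFinrankEq k ρ₂.V ρ₂.finrank_eq)
    (residual_charpoly_eq_of_frobenius ρ₁ ρ₂ hS h σ)

end

end FermatAgent.GalRep
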