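import Fermat.Agent.GalRep.Density.BrauerNesbitt
import Fermat.Prelude.Def_GaloisRep_ComplexConjugation

/-!
An odd irreducible two-dimensional residual representation in odd characteristic is absolutely
irreducible.
-/

set_option autoImplicit false

namespace FermatAgent.GalRep

noncomputable section

local notation "Qb" => AlgebraicClosure ℚ
local notation "GQ" => AlgebraicClosure ℚ ≃ₐ[ℚ] AlgebraicClosure ℚ

open scoped TensorProduct

theorem complexConjugation_ne_one' : complexConjugation ≠ 1 := by
  intro h
  obtain ⟨i, hi⟩ := IsAlgClosed.exists_pow_nat_eq (-1 : Qb) two_pos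
  have h1 := complexEmbedding_complexConjugation i
  rw [h, AlgEquiv.one_apply] at h1
  have h2 : complexEmbedding i ^ 2 = -1 := by rw [← map_pow, hi, map_neg, map_one]
  set z := complexEmbedding i
  have him : z.im = 0 := Complex.conj_eq_iff_im.mp h1.symm
  have h3 := congrArg Complex.re h2
  rw [sq, Complex.mul_re, him] at h3
  norm_num at h3
  nlinarith [mul_self_nonneg z.re]

theorem residual_isAbsolutelyIrreducible_of_det {k : Type} [Field k] (ρ : ResidualGaloisRep k)
    (hirr : ρ.IsIrreducible) (hdet : LinearMap.det (ρ.ρ complexConjugation) = -1)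
    (h2 : (2 : k) ≠ 0) : ρ.IsAbsolutelyIrreducible := by
  set c := ρ.ρ complexConjugation with hc
  have hcc : c * c = 1 := by rw [hc, ← map_mul, complexConjugation_mul_self, map_one]
  have hne : (-1 : k) ≠ 1 := fun h => h2 (by linear_combination -h)
  have hne1 : c ≠ 1 := fun h => hne (by rw [← hdet, h, map_one])
  have hne2 : c ≠ -1 := fun h => by
    apply hne
    rw [← hdet, h, show (-1 : Module.End k ρ.V) = (-1 : k) • (LinearMap.id) by simp [Module.End.one_eq_id],
      LinearMap.det_smul, LinearMap.det_id, ρ.finrank_eq]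
    norm_num
  obtain ⟨u, hu⟩ : ∃ u, u + c u ≠ 0 := by
    by_contra hall
    simp only [not_exists, not_not] at hall
    refine hne2 (LinearMap.ext fun x => ?_)
    rw [LinearMap.neg_apply, Module.End.one_apply]
    exact eq_neg_of_add_eq_zero_right (hall x)
  obtain ⟨u', hu'⟩ : ∃ u, u - c u ≠ 0 := by
    by_contra hall
    simp only [not_exists, not_not] at hall
    exact hne1 (LinearMap.ext fun x => (sub_eq_zero.mp (hall x)).symm)
  have hcx : ∀ x, c (c x) = x := fun x => LinearMap.congr_fun hcc x
  let v : Fin 2 → ρ.V := ![u + c u, u' - c u']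
  have hv0 : c (v 0) = v 0 := by
    show c (u + c u) = u + c u
    rw [map_add, hcx, add_comm]
  have hv1 : c (v 1) = - v 1 := by
    show c (u' - c u') = -(u' - c u')
    rw [map_sub, hcx, neg_sub]
  have hv0ne : v 0 ≠ 0 := hu
  have hv1ne : v 1 ≠ 0 := hu'
  have hlin : LinearIndependent k v := by
    rw [show v = ![v 0, v 1] by funext i; fin_cases i <;> rfl]
    rw [LinearIndependent.pair_iff]
    intro a b hab
    have h' := congrArg c hab
    rw [map_add, map_smul, map_smul, hv0, hv1, map_zero, smul_neg] at h'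
    have ha : (2 * a) • v 0 = 0 := by linear_combination (norm := module) hab + h'
    have hb : (2 * b) • v 1 = 0 := by linear_combination (norm := module) hab - h'
    simp only [smul_eq_zero, mul_eq_zero, h2, hv0ne, hv1ne, or_false, false_or] at ha hb
    exact ⟨ha, hb⟩
  let b := basisOfLinearIndependentOfCardEqFinrank hlin (by rw [Fintype.card_fin, ρ.finrank_eq])
  have hb : ∀ i, b i = v i := fun i => by simp [b]
  let K := AlgebraicClosure k
  intro W hW
  by_contra hcon
  simp only [not_or] at hcon
  obtain ⟨hbot, htop⟩ := hcon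
  obtain ⟨w, hwW, hw0⟩ := Submodule.exists_mem_ne_zero_of_ne_bot hbot
  set B := b.baseChange K with hB
  have hrepr : ∀ x i, B.repr ((1 : K) ⊗ₜ[k] x) i = algebraMap k K (b.repr x i) := fun x i => by
    rw [hB, Module.Basis.baseChange_repr_tmul, Algebra.algebraMap_eq_smul_one]
  have hBi : ∀ i, B i = (1 : K) ⊗ₜ[k] b i := fun i => by rw [hB, Module.Basis.baseChange_apply]
  have hcB : ∀ i, c.baseChange K (B i) = (1 : K) ⊗ₜ[k] c (b i) := fun i => by
    rw [hBi, LinearMap.baseChange_tmul]
  have hc0 : c.baseChange K (B 0) = B 0 := by rw [hcB, hb, hv0, ← hb, ← hBi]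
  have hc1 : c.baseChange K (B 1) = - B 1 := by
    rw [hcB, hb, hv1, TensorProduct.tmul_neg, ← hb, ← hBi]
  have hcw : c.baseChange K w ∈ W := hW complexConjugation w hwW
  have hwsum : w = B.repr w 0 • B 0 + B.repr w 1 • B 1 := by
    conv_lhs => rw [← B.sum_repr w, Fin.sum_univ_two]
  have hcwsum : c.baseChange K w = B.repr w 0 • B 0 - B.repr w 1 • B 1 := by
    conv_lhs => rw [hwsum]
    rw [map_add, map_smul, map_smul, hc0, hc1, smul_neg, sub_eq_add_neg]
  have h2K : (2 : K) ≠ 0 := by
    rw [← map_ofNat (algebraMap k K), Ne, map_eq_zero]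
    exact h2
  -- some basis vector lies in `W`
  obtain ⟨i, hiW⟩ : ∃ i, B i ∈ W := by
    have h0 : (2 * B.repr w 0) • B 0 ∈ W := by
      have : (2 * B.repr w 0) • B 0 = w + c.baseChange K w := by
        rw [hcwsum]; nth_rw 2 [hwsum]; module
      exact this ▸ add_mem hwW hcw
    have h1 : (2 * B.repr w 1) • B 1 ∈ W := by
      have : (2 * B.repr w 1) • B 1 = w - c.baseChange K w := by
        rw [hcwsum]; nth_rw 2 [hwsum]; module
      exact this ▸ sub_mem hwW hcw
    by_cases ha : B.repr w 0 = 0
    · refine ⟨1, (W.smul_mem_iff ?_).mp h1⟩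
      refine mul_ne_zero h2K fun hb => hw0 ?_
      rw [hwsum, ha, hb, zero_smul, zero_smul, add_zero]
    · exact ⟨0, (W.smul_mem_iff (mul_ne_zero h2K ha)).mp h0⟩
  have hWspan : W = Submodule.span K {B i} := by
    refine (Submodule.eq_of_le_of_finrank_le ((Submodule.span_singleton_le_iff_mem _ _).mpr hiW) ?_).symm
    rw [finrank_span_singleton (B.ne_zero i)]
    have := Submodule.finrank_lt htop
    have h2 := (ρ.baseChange K).finrank_eq
    change Module.finrank K W ≤ 1
    change Module.finrank K W < Module.finrank K (ρ.baseChange K).V at this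
    omega
  have hirr' := hirr (Submodule.span k {b i}) fun σ x hx => by
    obtain ⟨a, rfl⟩ := Submodule.mem_span_singleton.mp hx
    rw [map_smul]
    refine Submodule.smul_mem _ a (Submodule.mem_span_singleton.mpr ⟨b.repr (ρ.ρ σ (b i)) i, ?_⟩)
    have hσ : (ρ.ρ σ).baseChange K (B i) ∈ W := hW σ _ hiW
    rw [hWspan, Submodule.mem_span_singleton, hBi, LinearMap.baseChange_tmul, ← hBi] at hσ
    obtain ⟨a', ha'⟩ := hσ
    refine b.ext_elem fun j => ?_
    rw [map_smul, b.repr_self, Finsupp.smul_single, smul_eq_mul, mul_one]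
    by_cases hji : j = i
    · subst hji; rw [Finsupp.single_eq_same]
    · rw [Finsupp.single_eq_of_ne hji]
      apply (algebraMap k K).injective
      rw [map_zero, ← hrepr, ← ha', map_smul, B.repr_self, Finsupp.smul_single,
        Finsupp.single_eq_of_ne hji]
  rcases hirr' with h | h
  · exact b.ne_zero i (Submodule.span_singleton_eq_bot.mp h)
  · have := finrank_span_singleton (K := k) (b.ne_zero i)
    rw [h, finrank_top, ρ.finrank_eq] at this
    omega

theorem residual_isAbsolutelyIrreducible_of_isOdd {k : Type} [Field k] (ρ : ResidualGaloisRep k)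
    (hirr : ρ.IsIrreducible) (hodd : ρ.IsOdd) (h2 : (2 : k) ≠ 0) :
    ρ.IsAbsolutelyIrreducible :=
  residual_isAbsolutelyIrreducible_of_det ρ hirr
    (hodd _ complexConjugation_mul_self complexConjugation_ne_one') h2

end

end FermatAgent.GalRep
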