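import Fermat.Prelude.Def_EllipticCurve_FrobeniusTrace
import Mathlib

/-!
Conjugating a Frobenius element moves the place.
-/

set_option autoImplicit false

open scoped Pointwise

namespace FermatAgent.GalRep

variable {K L : Type*} [Field K] [Field L] [Algebra K L] {A : ValuationSubring L}

theorem mem_nonunits_smul_iff (g : L ≃ₐ[K] L) (x : L) :
    x ∈ (g • A).nonunits ↔ g⁻¹ x ∈ A.nonunits := by
  rw [ValuationSubring.mem_nonunits_iff_or, ValuationSubring.mem_nonunits_iff_or,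
    ValuationSubring.mem_pointwise_smul_iff_inv_smul_mem, AlgEquiv.smul_def, map_inv₀,
    EmbeddingLike.map_eq_zero_iff]

theorem liesOverPrime_smul (g : L ≃ₐ[K] L) {q : ℕ} (hA : A.LiesOverPrime q) :
    (g • A).LiesOverPrime q := by
  rw [ValuationSubring.LiesOverPrime, mem_nonunits_smul_iff, map_natCast]
  exact hA

theorem isFrobeniusAt_iff_forall_mem {σ : L ≃ₐ[K] L} {q : ℕ} :
    A.IsFrobeniusAt σ q ↔ σ ∈ A.decompositionSubgroup K ∧ ∀ x ∈ A, σ x - x ^ q ∈ A.nonunits := by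
  have key : ∀ (hσ : σ ∈ A.decompositionSubgroup K) (x : A),
      (⟨σ, hσ⟩ : A.decompositionSubgroup K) • IsLocalRing.residue A x =
        IsLocalRing.residue A x ^ q ↔ σ (x : L) - (x : L) ^ q ∈ A.nonunits := by
    intro hσ x
    rw [← IsLocalRing.ResidueField.residue_smul, ← map_pow, ← sub_eq_zero, ← map_sub,
      IsLocalRing.residue_eq_zero_iff, ← ValuationSubring.coe_mem_nonunits_iff]
    rfl
  constructor
  · rintro ⟨hσ, h⟩
    exact ⟨hσ, fun x hx => (key hσ ⟨x, hx⟩).mp (h _)⟩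
  · rintro ⟨hσ, h⟩
    refine ⟨hσ, fun y => ?_⟩
    obtain ⟨x, rfl⟩ := IsLocalRing.residue_surjective y
    exact (key hσ x).mpr (h x x.2)

theorem isFrobeniusAt_conj (g : L ≃ₐ[K] L) {σ : L ≃ₐ[K] L} {q : ℕ}
    (h : A.IsFrobeniusAt σ q) : (g • A).IsFrobeniusAt (g * σ * g⁻¹) q := by
  rw [isFrobeniusAt_iff_forall_mem] at h ⊢
  obtain ⟨hσ, h⟩ := h
  refine ⟨?_, fun x hx => ?_⟩
  · rw [ValuationSubring.decompositionSubgroup, MulAction.mem_stabilizer_iff] at hσ ⊢
    rw [mul_smul, mul_smul, inv_smul_smul, hσ]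
  · rw [mem_nonunits_smul_iff, map_sub, map_pow]
    rw [ValuationSubring.mem_pointwise_smul_iff_inv_smul_mem, AlgEquiv.smul_def] at hx
    have := h _ hx
    rwa [show g⁻¹ ((g * σ * g⁻¹) x) = σ (g⁻¹ x) by
      rw [← AlgEquiv.mul_apply, ← AlgEquiv.mul_apply, mul_assoc g σ, inv_mul_cancel_left]]

end FermatAgent.GalRep
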