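import Fermat.Agent.GalRep.Density.IdealCount

/-!
`∑ₚ a_K(p) p⁻ˢ = -log (s - 1) + O(1)` as `s → 1⁺`, from the residue of the Dedekind zeta function.
-/

set_option autoImplicit false

namespace FermatAgent.GalRep

open NumberField Filter Topology Asymptotics Finset

noncomputable section

/-- `∑ₚ b(p) p⁻ˢ`. -/
def primeSum (b : Nat.Primes → ℝ) (s : ℝ) : ℝ := ∑' p : Nat.Primes, b p * (p : ℝ) ^ (-s)

theorem summable_primeSum {b : Nat.Primes → ℝ} {C : ℝ} (hb : ∀ p, |b p| ≤ C) {s : ℝ}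
    (hs : 1 < s) : Summable fun p : Nat.Primes => b p * (p : ℝ) ^ (-s) := by
  refine Summable.of_norm_bounded ((Nat.Primes.summable_rpow.mpr (show -s < -1 by linarith)).mul_left C)
    fun p => ?_
  rw [Real.norm_eq_abs, abs_mul, abs_of_nonneg (Real.rpow_nonneg (Nat.cast_nonneg _) (-s))]
  exact mul_le_mul_of_nonneg_right (hb p) (Real.rpow_nonneg (Nat.cast_nonneg _) _)

theorem primeSum_finset_sum {ι : Type*} (t : Finset ι) {b : ι → Nat.Primes → ℝ} {C : ℝ}
    (hb : ∀ i ∈ t, ∀ p, |b i p| ≤ C) {s : ℝ} (hs : 1 < s) :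
    primeSum (fun p => ∑ i ∈ t, b i p) s = ∑ i ∈ t, primeSum (b i) s := by
  simp only [primeSum, Finset.sum_mul]
  exact Summable.tsum_finsetSum fun i hi => summable_primeSum (hb i hi) hs

theorem primeSum_const_mul (c : ℝ) (b : Nat.Primes → ℝ) (s : ℝ) :
    primeSum (fun p => c * b p) s = c * primeSum b s := by
  simp only [primeSum, mul_assoc, tsum_mul_left]

theorem primeSum_sub_isBigO {b b' : Nat.Primes → ℝ} {C : ℝ} (hb : ∀ p, |b p| ≤ C)
    (hb' : ∀ p, |b' p| ≤ C) (h : ({p | b p ≠ b' p}).Finite) :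
    (fun s => primeSum b s - primeSum b' s) =O[𝓝[>] 1] (fun _ => (1 : ℝ)) := by
  refine IsBigO.of_bound (∑ p ∈ h.toFinset, |b p - b' p|) ?_
  filter_upwards [self_mem_nhdsWithin] with s hs
  have hs1 : (1 : ℝ) < s := hs
  rw [primeSum, primeSum, ← Summable.tsum_sub (summable_primeSum hb hs1) (summable_primeSum hb' hs1),
    tsum_eq_sum (s := h.toFinset) fun p hp => by
      rw [show b p = b' p from not_not.mp fun hne => hp (h.mem_toFinset.mpr hne), sub_self]]
  rw [Real.norm_eq_abs, norm_one, mul_one]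
  refine (Finset.abs_sum_le_sum_abs _ _).trans (Finset.sum_le_sum fun p _ => ?_)
  rw [← sub_mul, abs_mul, abs_of_nonneg (Real.rpow_nonneg (Nat.cast_nonneg _) (-s))]
  refine mul_le_of_le_one_right (abs_nonneg _) (Real.rpow_le_one_of_one_le_of_nonpos ?_ (by linarith))
  exact_mod_cast p.2.one_lt.le

theorem not_log_sub_one_isBigO :
    ¬ (fun s : ℝ => Real.log (s - 1)) =O[𝓝[>] 1] (fun _ => (1 : ℝ)) := by
  intro h
  obtain ⟨C, hC⟩ := h.bound
  have ht : Tendsto (fun s : ℝ => Real.log (s - 1)) (𝓝[>] 1) atBot := by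
    refine Real.tendsto_log_nhdsGT_zero.comp (tendsto_nhdsWithin_iff.mpr ⟨?_, ?_⟩)
    · exact (continuous_sub_right (1 : ℝ)).tendsto' 1 0 (sub_self _) |>.mono_left nhdsWithin_le_nhds
    · filter_upwards [self_mem_nhdsWithin] with s hs using sub_pos.mpr (Set.mem_Ioi.mp hs)
  obtain ⟨s, hs1, hs2⟩ := (hC.and (ht.eventually (eventually_lt_atBot (-|C| - 1)))).exists
  rw [Real.norm_eq_abs, norm_one, mul_one] at hs1
  linarith [(abs_le.mp hs1).1, le_abs_self C]

variable (K : Type*) [Field K] [NumberField K]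

theorem tendsto_sum_idealCount_div :
    Tendsto (fun n : ℕ => (∑ k ∈ Icc 1 n, (idealCount K k : ℝ)) / n) atTop
      (𝓝 (dedekindZeta_residue K)) := by
  refine ((Ideal.tendsto_norm_le_div_atTop₀ K).comp tendsto_natCast_atTop_atTop).congr fun n ↦ ?_
  simp only [Function.comp_apply, Nat.cast_le, ← Nat.cast_sum, idealCount]
  congr
  rw [← add_left_inj 1, ← Ideal.card_norm_le_eq_card_norm_le_add_one,
    show Finset.Icc 1 n = Finset.Ioc 0 n from Finset.Icc_succ_left_eq_Ioc _ _,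
    show 1 = Nat.card {I : Ideal (𝓞 K) // Ideal.absNorm I = 0} by simp [Ideal.absNorm_eq_zero_iff],
    Finset.sum_Ioc_add_eq_sum_Icc (n.zero_le),
    ← Finset.card_preimage_eq_sum_card_image_eq (fun k _ ↦ Ideal.finite_setOfPred_absNorm_eq k)]
  simp [Set.coe_eq_subtype]

/-- The Dirichlet series term. -/
def zetaTerm (s : ℝ) (n : ℕ) : ℝ := (idealCount K n : ℝ) * (n : ℝ) ^ (-s)

theorem zetaTerm_zero {s : ℝ} (hs : 1 < s) : zetaTerm K s 0 = 0 := by
  rw [zetaTerm, Nat.cast_zero (R := ℝ), Real.zero_rpow (by linarith), mul_zero]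

theorem zetaTerm_one (s : ℝ) : zetaTerm K s 1 = 1 := by
  simp [zetaTerm, idealCount_one]

theorem zetaTerm_nonneg (s : ℝ) (n : ℕ) : 0 ≤ zetaTerm K s n :=
  mul_nonneg (Nat.cast_nonneg _) (Real.rpow_nonneg (Nat.cast_nonneg _) _)

theorem lseries_term_eq {s : ℝ} (hs : 1 < s) (n : ℕ) :
    LSeries.term (fun n => ((idealCount K n : ℝ) : ℂ)) (s : ℂ) n = (zetaTerm K s n : ℂ) := by
  rcases eq_or_ne n 0 with rfl | hn
  · simp [zetaTerm_zero K hs]
  · rw [LSeries.term_of_ne_zero hn, zetaTerm, Real.rpow_neg (Nat.cast_nonneg _),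
      Complex.ofReal_mul, Complex.ofReal_inv, Complex.ofReal_cpow (Nat.cast_nonneg _)]
    simp [div_eq_mul_inv]

theorem summable_zetaTerm {s : ℝ} (hs : 1 < s) : Summable (zetaTerm K s) := by
  have hO : (fun n : ℕ => ∑ k ∈ Icc 1 n, (idealCount K k : ℝ)) =O[atTop]
      fun n => (n : ℝ) ^ (1 : ℝ) := by
    have h := ((tendsto_sum_idealCount_div K).isBigO_one ℝ).mul
      (isBigO_refl (fun n : ℕ => (n : ℝ)) atTop)
    refine (h.congr' ?_ (by simp)).trans (isBigO_refl _ _)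
    filter_upwards [eventually_ne_atTop 0] with n hn
    rw [div_mul_cancel₀]
    exact_mod_cast hn
  have := LSeriesSummable_of_sum_norm_bigO_and_nonneg hO (fun n => Nat.cast_nonneg _) zero_le_one
    (s := (s : ℂ)) (by simpa using hs)
  replace this := Summable.congr this (lseries_term_eq K hs)
  exact Complex.summable_ofReal.mp this

theorem dedekindZeta_eq {s : ℝ} (hs : 1 < s) :
    dedekindZeta K s = ((∑' n, zetaTerm K s n : ℝ) : ℂ) := by
  rw [Complex.ofReal_tsum]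
  refine tsum_congr fun n => ?_
  rw [← lseries_term_eq K hs n]
  rfl

theorem log_zeta_isBigO :
    (fun s => Real.log (∑' n, zetaTerm K s n) + Real.log (s - 1)) =O[𝓝[>] 1]
      (fun _ => (1 : ℝ)) := by
  have h1 : Tendsto (fun s : ℝ => (s - 1) * ∑' n, zetaTerm K s n) (𝓝[>] 1)
      (𝓝 (dedekindZeta_residue K)) := by
    have h := (Complex.continuous_re.tendsto _).comp (tendsto_sub_one_mul_dedekindZeta_nhdsGT K)
    rw [Complex.ofReal_re] at h
    refine h.congr' ?_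
    filter_upwards [self_mem_nhdsWithin] with s hs
    have hs1 : (1 : ℝ) < s := hs
    rw [Function.comp_apply, dedekindZeta_eq K hs1, ← Complex.ofReal_one, ← Complex.ofReal_sub,
      ← Complex.ofReal_mul, Complex.ofReal_re]
  refine ((h1.log (dedekindZeta_residue_ne_zero K)).isBigO_one ℝ).congr' ?_ EventuallyEq.rfl
  filter_upwards [self_mem_nhdsWithin] with s hs
  have hs1 : (1 : ℝ) < s := hs
  rw [Real.log_mul (by linarith) ?_, add_comm]
  exact (lt_of_lt_of_le one_pos ((zetaTerm_one K s).symm.le.trans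
    ((summable_zetaTerm K hs1).le_tsum 1 fun n _ => zetaTerm_nonneg K s n))).ne'

theorem hasSum_log_euler {s : ℝ} (hs : 1 < s) :
    HasSum (fun p : Nat.Primes => Real.log (∑' e, zetaTerm K s ((p : ℕ) ^ e)))
      (Real.log (∑' n, zetaTerm K s n)) := by
  have hsum := summable_zetaTerm K hs
  have hmul : ∀ {m n : ℕ}, m.Coprime n → zetaTerm K s (m * n) = zetaTerm K s m * zetaTerm K s n := by
    intro m n h
    simp only [zetaTerm, idealCount_mul K h, Nat.cast_mul,
      Real.mul_rpow (Nat.cast_nonneg m) (Nat.cast_nonneg n)]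
    ring
  have hP := EulerProduct.eulerProduct_hasProd (zetaTerm_one K s) hmul hsum.norm (zetaTerm_zero K hs)
  have hF : ∀ p : Nat.Primes, 0 < ∑' e, zetaTerm K s ((p : ℕ) ^ e) := by
    intro p
    refine lt_of_lt_of_le one_pos ?_
    calc (1 : ℝ) = zetaTerm K s ((p : ℕ) ^ 0) := by rw [pow_zero, zetaTerm_one]
      _ ≤ _ := (hsum.comp_injective (Nat.pow_right_injective p.2.one_lt)).le_tsum 0
          fun n _ => zetaTerm_nonneg K s _
  have hZ : (∑' n, zetaTerm K s n) ≠ 0 := (lt_of_lt_of_le one_pos ((zetaTerm_one K s).symm.le.trans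
    (hsum.le_tsum 1 fun n _ => zetaTerm_nonneg K s n))).ne'
  exact ((Real.continuousAt_log hZ).tendsto.comp hP).congr fun t =>
    Real.log_prod fun p _ => (hF p).ne'

/-- The constant bounding the Euler factors. -/
def eulerConst : ℝ :=
  ∑' e : ℕ, ((e : ℝ) + 3) ^ Module.finrank ℤ (𝓞 K) * (1 / 2 : ℝ) ^ e

omit [NumberField K] in
theorem summable_eulerConst :
    Summable fun e : ℕ => ((e : ℝ) + 3) ^ Module.finrank ℤ (𝓞 K) * (1 / 2 : ℝ) ^ e := by
  have h := (summable_pow_mul_geometric_of_norm_lt_one (R := ℝ) (Module.finrank ℤ (𝓞 K))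
    (r := 1 / 2) (by norm_num)).comp_injective (i := fun e => e + 3) (add_left_injective 3)
  refine (h.mul_left 8).congr fun e => ?_
  simp only [Function.comp_apply, Nat.cast_add, Nat.cast_ofNat, pow_add]
  ring

theorem abs_log_euler_sub_le {s : ℝ} (hs : 1 < s) (p : Nat.Primes) :
    |Real.log (∑' e, zetaTerm K s ((p : ℕ) ^ e)) - (idealCount K p : ℝ) * (p : ℝ) ^ (-s)| ≤
      (eulerConst K + (2 ^ Module.finrank ℤ (𝓞 K) + eulerConst K) ^ 2) * (p : ℝ) ^ (-2 : ℝ) := by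
  set d := Module.finrank ℤ (𝓞 K)
  set C := eulerConst K
  set x₁ := (idealCount K p : ℝ) * (p : ℝ) ^ (-s) with hx₁
  have hp2 : (2 : ℝ) ≤ (p : ℝ) := by exact_mod_cast p.2.two_le
  have hp0 : (0 : ℝ) < (p : ℝ) := by linarith
  have hps : ∀ k : ℕ, zetaTerm K s ((p : ℕ) ^ k) ≤ ((k : ℝ) + 1) ^ d * ((p : ℝ)⁻¹) ^ k := by
    intro k
    have hc : (idealCount K ((p : ℕ) ^ k) : ℝ) ≤ ((k : ℝ) + 1) ^ d := by
      exact_mod_cast idealCount_prime_pow_le K p.2 k
    have hr : (((p : ℕ) ^ k : ℕ) : ℝ) ^ (-s) ≤ ((p : ℝ)⁻¹) ^ k := by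
      rw [inv_pow, Nat.cast_pow, ← Real.rpow_neg_one]
      exact Real.rpow_le_rpow_of_exponent_le (one_le_pow₀ (by linarith)) (by linarith)
    exact mul_le_mul hc hr (Real.rpow_nonneg (Nat.cast_nonneg _) _) (by positivity)
  have hsum := (summable_zetaTerm K hs).comp_injective (Nat.pow_right_injective p.2.one_lt)
  have hsplit := hsum.sum_add_tsum_nat_add 2
  simp only [Function.comp_apply, Finset.sum_range_succ, Finset.sum_range_zero, zero_add, pow_zero,
    pow_one, zetaTerm_one] at hsplit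
  rw [← hsplit]
  set r := ∑' i, zetaTerm K s ((p : ℕ) ^ (i + 2)) with hr
  change |Real.log (1 + x₁ + r) - x₁| ≤ _
  have hr0 : 0 ≤ r := tsum_nonneg fun i => zetaTerm_nonneg K s _
  have hx0 : 0 ≤ x₁ := zetaTerm_nonneg K s p
  have hC0 : 0 ≤ C := tsum_nonneg fun e => by positivity
  have hrC : r ≤ C * ((p : ℝ)⁻¹) ^ 2 := by
    rw [hr, show C * ((p : ℝ)⁻¹) ^ 2 = ∑' e : ℕ,
      ((e : ℝ) + 3) ^ d * (1 / 2 : ℝ) ^ e * ((p : ℝ)⁻¹) ^ 2 from (tsum_mul_right).symm]
    refine Summable.tsum_le_tsum (fun i => (hps _).trans ?_)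
      (hsum.comp_injective (add_left_injective 2)) ((summable_eulerConst K).mul_right _)
    rw [pow_add, mul_assoc, Nat.cast_add, Nat.cast_ofNat, add_assoc]
    norm_num only
    refine mul_le_mul_of_nonneg_left (mul_le_mul_of_nonneg_right ?_ (by positivity)) (by positivity)
    rw [one_div]
    exact pow_le_pow_left₀ (by positivity) (inv_anti₀ two_pos hp2) i
  have hx1 : x₁ ≤ (2 : ℝ) ^ d * (p : ℝ)⁻¹ := by
    have := hps 1
    norm_num [pow_one] at this
    simpa [zetaTerm, hx₁] using this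
  have hinv1 : (p : ℝ)⁻¹ ≤ 1 := inv_le_one_of_one_le₀ (by linarith)
  have hxr : x₁ + r ≤ (2 ^ d + C) * (p : ℝ)⁻¹ := by
    have : C * ((p : ℝ)⁻¹) ^ 2 ≤ C * (p : ℝ)⁻¹ := by
      refine mul_le_mul_of_nonneg_left ?_ hC0
      exact pow_le_of_le_one (by positivity) hinv1 two_ne_zero
    linarith
  have hsq : (x₁ + r) ^ 2 ≤ (2 ^ d + C) ^ 2 * ((p : ℝ)⁻¹) ^ 2 := by
    rw [← mul_pow]
    exact pow_le_pow_left₀ (by positivity) hxr 2
  have hup : Real.log (1 + x₁ + r) ≤ x₁ + r := by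
    linarith [Real.log_le_sub_one_of_pos (show (0 : ℝ) < 1 + x₁ + r by linarith)]
  have hlow : x₁ + r - (x₁ + r) ^ 2 ≤ Real.log (1 + x₁ + r) := by
    refine le_trans ?_ (Real.one_sub_inv_le_log_of_pos (show (0 : ℝ) < 1 + x₁ + r by linarith))
    set y := x₁ + r with hy
    have hy0 : 0 ≤ y := by positivity
    rw [show 1 + x₁ + r = 1 + y by rw [hy]; ring]
    have : (1 : ℝ) + y ≠ 0 := by linarith
    field_simp
    nlinarith [pow_nonneg hy0 3]
  have hpe : (p : ℝ) ^ (-2 : ℝ) = ((p : ℝ)⁻¹) ^ 2 := by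
    rw [show (-2 : ℝ) = ((-2 : ℤ) : ℝ) by norm_num, Real.rpow_intCast, zpow_neg, inv_pow]
    rfl
  rw [hpe, add_mul, abs_le]
  have : 0 ≤ (2 ^ d + C) ^ 2 * ((p : ℝ)⁻¹) ^ 2 := by positivity
  have : 0 ≤ C * ((p : ℝ)⁻¹) ^ 2 := by positivity
  constructor <;> linarith

theorem idealCount_prime_abs_le (p : Nat.Primes) :
    |(idealCount K p : ℝ)| ≤ 2 ^ Module.finrank ℤ (𝓞 K) := by
  rw [Nat.abs_cast]
  exact_mod_cast (pow_one (p : ℕ)) ▸ idealCount_prime_pow_le K p.2 1

/-- `∑ₚ a_K(p) p⁻ˢ = -log (s - 1) + O(1)`. -/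
theorem primeSum_idealCount_isBigO :
    (fun s => primeSum (fun p => (idealCount K p : ℝ)) s + Real.log (s - 1)) =O[𝓝[>] 1]
      (fun _ => (1 : ℝ)) := by
  let C := eulerConst K + (2 ^ Module.finrank ℤ (𝓞 K) + eulerConst K) ^ 2
  have hdiff : (fun s => Real.log (∑' n, zetaTerm K s n) -
      primeSum (fun p => (idealCount K p : ℝ)) s) =O[𝓝[>] 1] (fun _ => (1 : ℝ)) := by
    refine IsBigO.of_bound (∑' p : Nat.Primes, C * (p : ℝ) ^ (-2 : ℝ)) ?_
    filter_upwards [self_mem_nhdsWithin] with s hs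
    have hs1 : (1 : ℝ) < s := hs
    have h := (hasSum_log_euler K hs1).sub
      (summable_primeSum (idealCount_prime_abs_le K) hs1).hasSum
    rw [norm_one, mul_one, primeSum, ← h.tsum_eq]
    exact tsum_of_norm_bounded
      (((Nat.Primes.summable_rpow).mpr (by norm_num)).mul_left C).hasSum
      fun p => abs_log_euler_sub_le K hs1 p
  exact ((log_zeta_isBigO K).sub hdiff).congr_left fun s => by ring

end

end FermatAgent.GalRep
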