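import Fermat.Agent.GalRep.Density.Split
import Fermat.Agent.GalRep.Density.PrimeSum

/-!
Frobenius' counting argument: every element of a finite Galois group is, up to conjugacy, a
generator of the cyclic group generated by a Frobenius element.
-/

set_option autoImplicit false

open Filter Topology Asymptotics

namespace FermatAgent.GalRep

noncomputable section

local notation "Qb" => AlgebraicClosure ℚ
local notation "GQ" => AlgebraicClosure ℚ ≃ₐ[ℚ] AlgebraicClosure ℚ

attribute [local instance] FermatAgent.RT.isGalois_algClosureRat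

variable (L : IntermediateField ℚ Qb) [FiniteDimensional ℚ L] [IsGalois ℚ L]

/-- The embeddings of a fixed field fixed by `τ`, counted in the Galois group. -/
theorem card_conj_mem_eq (D : Subgroup (L ≃ₐ[ℚ] L)) (τ : GQ) :
    Nat.card {x : L ≃ₐ[ℚ] L // x⁻¹ * AlgEquiv.restrictNormalHom L τ * x ∈ D} =
      Nat.card D * Nat.card {e : IntermediateField.fixedField D →ₐ[ℚ] Qb //
        τ.toAlgHom.comp e = e} := by
  classical
  let K := IntermediateField.fixedField D
  set t := AlgEquiv.restrictNormalHom L τ with ht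
  have htc : ∀ y : L, τ (y : Qb) = (t y : Qb) := fun y =>
    (AlgEquiv.restrictNormal_commutes τ L y).symm
  have hfix : ∀ x : L ≃ₐ[ℚ] L, x ∈ D ↔ ∀ k : K, x (k : L) = k := by
    intro x
    conv_lhs => rw [← IntermediateField.fixingSubgroup_fixedField D]
    rw [IntermediateField.mem_fixingSubgroup_iff]
    exact ⟨fun h k => h k k.2, fun h y hy => h ⟨y, hy⟩⟩
  let ψ : (L ≃ₐ[ℚ] L) → (K →ₐ[ℚ] Qb) := fun x => (L.val.comp x.toAlgHom).comp K.val
  have hψ : ∀ x y : L ≃ₐ[ℚ] L, ψ x = ψ y ↔ x⁻¹ * y ∈ D := by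
    intro x y
    rw [hfix]
    refine ⟨fun h k => ?_, fun h => AlgHom.ext fun k => ?_⟩
    · have hk : x (k : L) = y k := Subtype.ext (DFunLike.congr_fun h k)
      rw [AlgEquiv.mul_apply, ← hk, ← AlgEquiv.mul_apply, inv_mul_cancel, AlgEquiv.one_apply]
    · refine congrArg Subtype.val (show x (k : L) = y k from ?_)
      conv_lhs => rw [← h k]
      rw [← AlgEquiv.mul_apply, mul_inv_cancel_left]
  let Ψ : (L ≃ₐ[ℚ] L) ⧸ D → (K →ₐ[ℚ] Qb) :=
    Quotient.lift ψ fun x y h => (hψ x y).mpr (QuotientGroup.leftRel_apply.mp h)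
  have hΨ : Function.Bijective Ψ := by
    refine (Nat.bijective_iff_injective_and_card Ψ).mpr ⟨?_, ?_⟩
    · rintro ⟨x⟩ ⟨y⟩ h
      exact QuotientGroup.eq.mpr ((hψ x y).mp h)
    · rw [Nat.card_eq_fintype_card (α := K →ₐ[ℚ] Qb), AlgHom.card ℚ K Qb]
      have h1 : Module.finrank ℚ K * Nat.card D = Module.finrank ℚ L := by
        rw [← IntermediateField.finrank_fixedField_eq_card, Module.finrank_mul_finrank]
      rw [← IsGalois.card_aut_eq_finrank ℚ L, Subgroup.card_eq_card_quotient_mul_card_subgroup D] at h1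
      exact (Nat.eq_of_mul_eq_mul_right Nat.card_pos h1).symm
  let T : Set ((L ≃ₐ[ℚ] L) ⧸ D) := {q | τ.toAlgHom.comp (Ψ q) = Ψ q}
  have hmem : ∀ x : L ≃ₐ[ℚ] L, x⁻¹ * t * x ∈ D ↔
      x ∈ (QuotientGroup.mk ⁻¹' T : Set (L ≃ₐ[ℚ] L)) := by
    intro x
    have : τ.toAlgHom.comp (ψ x) = ψ (t * x) := AlgHom.ext fun k => htc (x k)
    rw [mul_assoc, ← hψ, Set.mem_preimage]
    show _ ↔ τ.toAlgHom.comp (ψ x) = ψ x
    rw [this, eq_comm]
  rw [Nat.card_congr (Equiv.subtypeEquivRight hmem),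
    Nat.card_congr (QuotientGroup.preimageMkEquivSubgroupProdSet D T), Nat.card_prod]
  congr 1
  exact Nat.card_congr ((Equiv.ofBijective Ψ hΨ).subtypeEquiv fun q => Iff.rfl)

theorem mem_zpowers_pow_div_iff {G : Type*} [Group G] [Finite G] {σ y : G} {d : ℕ}
    (hd : d ∣ orderOf σ) :
    y ∈ Subgroup.zpowers (σ ^ (orderOf σ / d)) ↔ y ∈ Subgroup.zpowers σ ∧ orderOf y ∣ d := by
  obtain ⟨c, hc⟩ := hd
  have hd0 : 0 < d := Nat.pos_of_ne_zero fun h => (orderOf_pos σ).ne' (by rw [hc, h, zero_mul])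
  have hdiv : orderOf σ / d = c := by rw [hc, Nat.mul_div_cancel_left _ hd0]
  rw [hdiv, ← mem_powers_iff_mem_zpowers, ← mem_powers_iff_mem_zpowers]
  constructor
  · rintro ⟨k, rfl⟩
    refine ⟨⟨c * k, pow_mul σ c k⟩, orderOf_dvd_of_pow_eq_one ?_⟩
    dsimp only
    rw [← pow_mul, ← pow_mul, show c * (k * d) = d * c * k by ring, ← hc, pow_mul,
      pow_orderOf_eq_one, one_pow]
  · rintro ⟨⟨k, rfl⟩, hk⟩
    dsimp only at hk
    rw [orderOf_dvd_iff_pow_eq_one, ← pow_mul, ← orderOf_dvd_iff_pow_eq_one, hc, mul_comm d c] at hk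
    obtain ⟨j, rfl⟩ := Nat.dvd_of_mul_dvd_mul_right hd0 hk
    exact ⟨j, (pow_mul σ c j).symm⟩

/-- Frobenius' density theorem for a finite Galois extension. -/
theorem exists_prime_conj_generates (σ : L ≃ₐ[ℚ] L) {S : Set ℕ} (hS : S.Finite) :
    ∃ p : ℕ, p.Prime ∧ p ∉ S ∧ ∃ A : ValuationSubring Qb, A.LiesOverPrime p ∧
      ∃ τ : GQ, A.IsFrobeniusAt τ p ∧ ∃ x : L ≃ₐ[ℚ] L,
        x⁻¹ * AlgEquiv.restrictNormalHom L τ * x ∈ Subgroup.zpowers σ ∧
        orderOf (x⁻¹ * AlgEquiv.restrictNormalHom L τ * x) = orderOf σ := by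
  classical
  let := Fintype.ofFinite (L ≃ₐ[ℚ] L)
  choose Ap τp hAp hτp using
    fun p : Nat.Primes => FermatAgent.RT.exists_place_isFrobeniusAt p.2
  let y : Nat.Primes → (L ≃ₐ[ℚ] L) → (L ≃ₐ[ℚ] L) := fun p x =>
    x⁻¹ * AlgEquiv.restrictNormalHom L (τp p) * x
  let w : ℕ → Nat.Primes → ℝ := fun e p =>
    ((Finset.univ.filter fun x => y p x ∈ Subgroup.zpowers σ ∧ orderOf (y p x) = e).card : ℝ)
  let W : ℕ → Nat.Primes → ℝ := fun d p =>
    ((Finset.univ.filter fun x => y p x ∈ Subgroup.zpowers (σ ^ (orderOf σ / d))).card : ℝ)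
  let C : ℝ := Fintype.card (L ≃ₐ[ℚ] L)
  have hw : ∀ e p, |w e p| ≤ C := fun e p => by
    rw [Nat.abs_cast]; exact Nat.cast_le.mpr (Finset.card_le_univ _)
  have hW : ∀ d p, |W d p| ≤ C := fun d p => by
    rw [Nat.abs_cast]; exact Nat.cast_le.mpr (Finset.card_le_univ _)
  have hWw : ∀ d, d ∣ orderOf σ → ∀ p, W d p = ∑ e ∈ d.divisors, w e p := by
    intro d hd p
    have hd0 : d ≠ 0 := fun h => (orderOf_pos σ).ne' (Nat.eq_zero_of_zero_dvd (h ▸ hd))
    simp only [W, w, ← Nat.cast_sum, Nat.cast_inj]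
    rw [Finset.card_eq_sum_card_fiberwise (t := d.divisors) (f := fun x => orderOf (y p x))]
    · refine Finset.sum_congr rfl fun e he => congrArg _ (Finset.ext fun x => ?_)
      simp only [Finset.mem_filter, Finset.mem_univ, true_and, mem_zpowers_pow_div_iff hd]
      exact ⟨fun h => ⟨h.1.1, h.2⟩,
        fun h => ⟨⟨h.1, h.2 ▸ (Nat.mem_divisors.mp he).1⟩, h.2⟩⟩
    · intro x hx
      simp only [Finset.coe_filter, Finset.mem_univ, true_and, Set.mem_ofPred_eq,
        mem_zpowers_pow_div_iff hd] at hx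
      exact Nat.mem_divisors.mpr ⟨hx.2, hd0⟩
  have hWlog : ∀ d, d ∣ orderOf σ →
      (fun s => primeSum (W d) s + (d : ℝ) * Real.log (s - 1)) =O[𝓝[>] 1]
        (fun _ => (1 : ℝ)) := by
    intro d hd
    set D := Subgroup.zpowers (σ ^ (orderOf σ / d))
    have hcard : Nat.card D = d := by
      obtain ⟨c, hc⟩ := hd
      have hd0 : 0 < d := Nat.pos_of_ne_zero fun h => (orderOf_pos σ).ne' (by rw [hc, h, zero_mul])
      have hc0 : c ≠ 0 := fun h => (orderOf_pos σ).ne' (by rw [hc, h, mul_zero])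
      rw [Nat.card_zpowers, hc, Nat.mul_div_cancel_left _ hd0, orderOf_pow' σ hc0, hc,
        Nat.gcd_mul_left_left, Nat.mul_div_cancel _ (Nat.pos_of_ne_zero hc0)]
    let K := IntermediateField.fixedField D
    have : FiniteDimensional ℚ K := inferInstance
    have : NumberField K := ⟨⟩
    obtain ⟨B, hB, hBeq⟩ := exists_finite_idealCount_eq K
    let C' : ℝ := max C ((d : ℝ) * 2 ^ Module.finrank ℤ (NumberField.RingOfIntegers K))
    have hfin : ({p : Nat.Primes | W d p ≠ (d : ℝ) * idealCount K p}).Finite := by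
      refine (hB.preimage Subtype.val_injective.injOn).subset fun p hp => ?_
      by_contra hpB
      refine hp ?_
      rw [hBeq p p.2 hpB (Ap p) (hAp p) (τp p) (hτp p), ← Nat.cast_mul]
      refine Nat.cast_inj.mpr ?_
      have hc2 := card_conj_mem_eq L D (τp p)
      rw [hcard, Nat.card_eq_fintype_card, Fintype.card_subtype] at hc2
      exact hc2
    have h1 := primeSum_sub_isBigO (C := C') (fun p => (hW d p).trans (le_max_left _ _))
      (fun p => by
        rw [abs_mul, Nat.abs_cast]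
        exact (mul_le_mul_of_nonneg_left (idealCount_prime_abs_le K p) (Nat.cast_nonneg _)).trans
          (le_max_right _ _)) hfin
    refine (h1.add ((primeSum_idealCount_isBigO K).const_mul_left (d : ℝ))).congr_left fun s => ?_
    rw [primeSum_const_mul]
    ring
  have hwlog : ∀ e, e ∣ orderOf σ →
      (fun s => primeSum (w e) s + (e.totient : ℝ) * Real.log (s - 1)) =O[𝓝[>] 1]
        (fun _ => (1 : ℝ)) := by
    intro e
    induction e using Nat.strong_induction_on with
    | _ d ih =>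
      intro hd
      have hd0 : d ≠ 0 := fun h => (orderOf_pos σ).ne' (Nat.eq_zero_of_zero_dvd (h ▸ hd))
      have hprop : (fun s => ∑ e ∈ d.properDivisors,
          (primeSum (w e) s + (e.totient : ℝ) * Real.log (s - 1))) =O[𝓝[>] 1]
            (fun _ => (1 : ℝ)) :=
        IsBigO.fun_sum fun e he => ih e (Nat.mem_properDivisors.mp he).2
          ((Nat.mem_properDivisors.mp he).1.trans hd)
      refine ((hWlog d hd).sub hprop).congr' ?_ EventuallyEq.rfl
      filter_upwards [self_mem_nhdsWithin] with s hs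
      have h2 : primeSum (W d) s = ∑ e ∈ d.divisors, primeSum (w e) s := by
        rw [show W d = fun p => ∑ e ∈ d.divisors, w e p from funext (hWw d hd)]
        exact primeSum_finset_sum _ (fun e _ p => hw e p) hs
      have h3 : (d : ℝ) = ∑ e ∈ d.divisors, (e.totient : ℝ) := by
        exact_mod_cast (Nat.sum_totient d).symm
      rw [← Nat.insert_self_properDivisors hd0,
        Finset.sum_insert Nat.self_notMem_properDivisors] at h2 h3
      rw [h2, h3, Finset.sum_add_distrib, add_mul, Finset.sum_mul]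
      ring
  by_contra hno
  apply not_log_sub_one_isBigO
  have hzero : ({p : Nat.Primes | w (orderOf σ) p ≠ (fun _ => (0 : ℝ)) p}).Finite := by
    refine (hS.preimage Subtype.val_injective.injOn).subset fun p hp => ?_
    by_contra hpS
    refine hp ?_
    simp only [w, Nat.cast_eq_zero, Finset.card_eq_zero, Finset.filter_eq_empty_iff]
    intro x _ hx
    exact hno ⟨p, p.2, hpS, Ap p, hAp p, τp p, hτp p, x, hx.1, hx.2⟩
  have h := (hwlog _ dvd_rfl).sub (primeSum_sub_isBigO (C := C) (hw (orderOf σ))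
    (b' := fun _ => 0) (fun p => by simp [C]) hzero)
  have hφ : ((orderOf σ).totient : ℝ) ≠ 0 :=
    Nat.cast_ne_zero.mpr (Nat.totient_pos.mpr (orderOf_pos σ)).ne'
  refine (h.const_mul_left ((orderOf σ).totient : ℝ)⁻¹).congr_left fun s => ?_
  rw [show primeSum (fun _ => (0 : ℝ)) s = 0 by simp [primeSum]]
  field_simp
  ring

end

end FermatAgent.GalRep
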