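import Fermat.Prelude.Def_GaloisRep_Residual
import Fermat.Agent.GalRep.Density.Conj
import Fermat.Agent.GalRep.Density.Counting

/-!
Frobenius density (1880): every element of the Galois group of a finite extension of `ℚ` generates
the same cyclic subgroup as some Frobenius element, outside any finite set of primes.
-/

set_option autoImplicit false

open scoped Pointwise

namespace FermatAgent.GalRep

noncomputable section

local notation "Qb" => AlgebraicClosure ℚ
local notation "GQ" => AlgebraicClosure ℚ ≃ₐ[ℚ] AlgebraicClosure ℚ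

attribute [local instance] FermatAgent.RT.isGalois_algClosureRat

/-- Frobenius' density theorem in existence form. -/
theorem exists_isFrobeniusAt_pow_eq (L : IntermediateField ℚ Qb) [FiniteDimensional ℚ L] (σ : GQ)
    {S : Set ℕ} (hS : S.Finite) :
    ∃ p : ℕ, p.Prime ∧ p ∉ S ∧ ∃ A : ValuationSubring Qb, A.LiesOverPrime p ∧
      ∃ τ : GQ, A.IsFrobeniusAt τ p ∧
        ∃ m k : ℕ, (∀ x ∈ L, (τ ^ m) x = σ x) ∧ ∀ x ∈ L, (σ ^ k) x = τ x := by
  let M := IntermediateField.normalClosure ℚ L Qb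
  have : Normal ℚ M := normalClosure.normal ℚ L Qb
  have : Algebra.IsSeparable ℚ M := Algebra.IsSeparable.of_integral ℚ M
  have : IsGalois ℚ M := ⟨⟩
  let r := AlgEquiv.restrictNormalHom M (F := ℚ) (K₁ := Qb)
  obtain ⟨p, hp, hpS, A, hA, τ, hτ, x, hmem, hord⟩ := exists_prime_conj_generates M (r σ) hS
  obtain ⟨g, hg⟩ := AlgEquiv.restrictNormalHom_surjective (F := ℚ) (K₁ := M) Qb x⁻¹
  have hr : r (g * τ * g⁻¹) = x⁻¹ * r τ * x := by
    rw [map_mul, map_mul, map_inv, show r g = x⁻¹ from hg, inv_inv]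
  have hback : r σ ∈ Subgroup.zpowers (x⁻¹ * r τ * x) := by
    have hle : Subgroup.zpowers (x⁻¹ * r τ * x) ≤ Subgroup.zpowers (r σ) :=
      Subgroup.zpowers_le.mpr hmem
    rw [Subgroup.eq_of_le_of_card_ge hle
      (by rw [Nat.card_zpowers, Nat.card_zpowers, hord])]
    exact Subgroup.mem_zpowers _
  rw [← mem_powers_iff_mem_zpowers] at hmem hback
  obtain ⟨k, hk⟩ := hmem
  obtain ⟨m, hm⟩ := hback
  dsimp only at hk hm
  have key : ∀ a b : GQ, r a = r b → ∀ z ∈ L, a z = b z := by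
    intro a b hab z hz
    have hz' : z ∈ M := IntermediateField.le_normalClosure L hz
    have h1 := AlgEquiv.restrictNormal_commutes a M ⟨z, hz'⟩
    have h2 := AlgEquiv.restrictNormal_commutes b M ⟨z, hz'⟩
    exact h1.symm.trans ((congrArg (fun e : M ≃ₐ[ℚ] M => (e ⟨z, hz'⟩ : Qb)) hab).trans h2)
  exact ⟨p, hp, hpS, g • A, liesOverPrime_smul g hA, g * τ * g⁻¹, isFrobeniusAt_conj g hτ, m, k,
    key _ _ (by rw [map_pow, hr, hm]), key _ _ (by rw [map_pow, hr]; exact hk)⟩

/-- The same through a homomorphism which factors through a finite level. -/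
theorem exists_isFrobeniusAt_map_pow_eq {M : Type} [MulOneClass M] (ρ : GQ →* M)
    (hρ : GaloisFactorsThroughFiniteLevel ρ) (σ : GQ) {S : Set ℕ} (hS : S.Finite) :
    ∃ p : ℕ, p.Prime ∧ p ∉ S ∧ ∃ A : ValuationSubring Qb, A.LiesOverPrime p ∧
      ∃ τ : GQ, A.IsFrobeniusAt τ p ∧
        ∃ m k : ℕ, ρ (τ ^ m) = ρ σ ∧ ρ (σ ^ k) = ρ τ := by
  obtain ⟨L, hL, h1⟩ := hρ
  obtain ⟨p, hp, hpS, A, hA, τ, hτ, m, k, hm, hk⟩ := exists_isFrobeniusAt_pow_eq L σ hS
  have key : ∀ a b : GQ, (∀ x ∈ L, a x = b x) → ρ a = ρ b := by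
    intro a b h
    have : ρ (b⁻¹ * a) = 1 := h1 _ fun x hx => by
      rw [AlgEquiv.mul_apply, h x hx, ← AlgEquiv.mul_apply, inv_mul_cancel, AlgEquiv.one_apply]
    calc ρ a = ρ (b * (b⁻¹ * a)) := by rw [mul_inv_cancel_left]
      _ = ρ b := by rw [map_mul, this, mul_one]
  exact ⟨p, hp, hpS, A, hA, τ, hτ, m, k, key _ _ hm, key _ _ hk⟩

/-- A property stable under powers which holds at almost all Frobenius elements holds on the whole
image of a representation which factors through a finite level. -/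
theorem forall_of_frobenius {M : Type} [Monoid M] (ρ : GQ →* M)
    (hρ : GaloisFactorsThroughFiniteLevel ρ) {S : Set ℕ} (hS : S.Finite) (P : M → Prop)
    (hpow : ∀ (x : M) (m : ℕ), P x → P (x ^ m))
    (h : ∀ p : ℕ, p.Prime → p ∉ S → ∀ A : ValuationSubring Qb, A.LiesOverPrime p →
      ∀ τ : GQ, A.IsFrobeniusAt τ p → P (ρ τ)) (σ : GQ) : P (ρ σ) := by
  obtain ⟨p, hp, hpS, A, hA, τ, hτ, m, k, hm, -⟩ := exists_isFrobeniusAt_map_pow_eq ρ hρ σ hS
  rw [← hm, map_pow]
  exact hpow _ _ (h p hp hpS A hA τ hτ)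

/-- Two homomorphisms factoring through finite levels which agree at almost all Frobenius elements
are equal. -/
theorem monoidHom_ext_of_frobenius {M : Type} [Monoid M] (f g : GQ →* M)
    (hf : GaloisFactorsThroughFiniteLevel f) (hg : GaloisFactorsThroughFiniteLevel g)
    {S : Set ℕ} (hS : S.Finite)
    (h : ∀ p : ℕ, p.Prime → p ∉ S → ∀ A : ValuationSubring Qb, A.LiesOverPrime p →
      ∀ τ : GQ, A.IsFrobeniusAt τ p → f τ = g τ) : f = g := by
  obtain ⟨Lf, hLf, hf1⟩ := hf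
  obtain ⟨Lg, hLg, hg1⟩ := hg
  have hfg : GaloisFactorsThroughFiniteLevel (f.prod g) :=
    ⟨Lf ⊔ Lg, IntermediateField.finiteDimensional_sup Lf Lg, fun σ hσ => Prod.ext
      (hf1 σ fun x hx => hσ x (le_sup_left (b := Lg) hx))
      (hg1 σ fun x hx => hσ x (le_sup_right (a := Lf) hx))⟩
  exact MonoidHom.ext fun σ => forall_of_frobenius (f.prod g) hfg hS (fun x => x.1 = x.2)
    (fun x m hx => by simp [hx]) h σ

end

end FermatAgent.GalRep
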