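import Mathlib

/-!
The number of ideals of given norm in a number field is multiplicative and polynomially bounded
on prime powers.
-/

set_option autoImplicit false

namespace FermatAgent.GalRep

open NumberField UniqueFactorizationMonoid

variable (K : Type*) [Field K] [NumberField K]

/-- The number of integral ideals of norm `n`. -/
noncomputable def idealCount (n : ℕ) : ℕ := Nat.card {I : Ideal (𝓞 K) // Ideal.absNorm I = n}

theorem idealCount_one : idealCount K 1 = 1 := by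
  rw [idealCount, Nat.card_eq_one_iff_unique]
  exact ⟨⟨fun I J => Subtype.ext
    ((Ideal.absNorm_eq_one_iff.mp I.2).trans (Ideal.absNorm_eq_one_iff.mp J.2).symm)⟩,
    ⟨⊤, Ideal.absNorm_top⟩⟩

theorem absNorm_dvd_natCast_pow {J : Ideal (𝓞 K)} {m : ℕ} (h : (m : 𝓞 K) ∈ J) :
    Ideal.absNorm J ∣ m ^ Module.finrank ℤ (𝓞 K) := by
  rw [← Ideal.absNorm_span_natCast]
  exact Ideal.absNorm_dvd_absNorm_of_le ((Ideal.span_singleton_le_iff_mem _).mpr h)

omit [NumberField K] in
theorem coprime_span_natCast {m n : ℕ} (h : m.Coprime n) :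
    IsCoprime (Ideal.span {(m : 𝓞 K)}) (Ideal.span {(n : 𝓞 K)}) := by
  rw [Ideal.isCoprime_span_singleton_iff]
  simpa using (Nat.Coprime.isCoprime h).map (algebraMap ℤ (𝓞 K))

theorem idealCount_mul {m n : ℕ} (h : m.Coprime n) :
    idealCount K (m * n) = idealCount K m * idealCount K n := by
  rw [idealCount, idealCount, idealCount, ← Nat.card_prod]
  symm
  refine Nat.card_congr (Equiv.ofBijective
    (fun J => ⟨J.1.1 * J.2.1, by rw [map_mul, J.1.2, J.2.2]⟩) ⟨?_, ?_⟩)
  · have key : ∀ (k l : ℕ), k.Coprime l → ∀ J J' : Ideal (𝓞 K), Ideal.absNorm J = k →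
        Ideal.absNorm J' = l → J * J' ⊔ Ideal.span {(k : 𝓞 K)} = J := by
      intro k l hkl J J' hJ hJ'
      have hk : Ideal.span {(k : 𝓞 K)} ≤ J :=
        (Ideal.span_singleton_le_iff_mem _).mpr (hJ ▸ Ideal.absNorm_mem J)
      have hl : Ideal.span {(l : 𝓞 K)} ≤ J' :=
        (Ideal.span_singleton_le_iff_mem _).mpr (hJ' ▸ Ideal.absNorm_mem J')
      have hcop : J' ⊔ Ideal.span {(k : 𝓞 K)} = ⊤ := top_le_iff.mp <| calc
        ⊤ = Ideal.span {(l : 𝓞 K)} ⊔ Ideal.span {(k : 𝓞 K)} :=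
          ((coprime_span_natCast K hkl.symm).sup_eq).symm
        _ ≤ _ := sup_le_sup_right hl _
      refine le_antisymm (sup_le Ideal.mul_le_left hk) ?_
      calc J = J * (J' ⊔ Ideal.span {(k : 𝓞 K)}) := by rw [hcop, Ideal.mul_top]
        _ = J * J' ⊔ J * Ideal.span {(k : 𝓞 K)} := Ideal.mul_sup _ _ _
        _ ≤ _ := sup_le_sup_left Ideal.mul_le_right _
    intro J J' hJJ
    have e : J.1.1 * J.2.1 = J'.1.1 * J'.2.1 := congrArg Subtype.val hJJ
    ext1
    · exact Subtype.ext (by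
        rw [← key m n h _ _ J.1.2 J.2.2, e, key m n h _ _ J'.1.2 J'.2.2])
    · exact Subtype.ext (by
        rw [← key n m h.symm _ _ J.2.2 J.1.2, mul_comm, e, mul_comm,
          key n m h.symm _ _ J'.2.2 J'.1.2])
  · rintro ⟨I, hI⟩
    have hmn : ((m : 𝓞 K) * n) ∈ I := by
      simpa [hI] using Ideal.absNorm_mem I
    have hprod : (I ⊔ Ideal.span {(m : 𝓞 K)}) * (I ⊔ Ideal.span {(n : 𝓞 K)}) = I := by
      apply le_antisymm
      · rw [Ideal.sup_mul, Ideal.mul_sup (Ideal.span {(m : 𝓞 K)}),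
          Ideal.span_singleton_mul_span_singleton]
        exact sup_le Ideal.mul_le_left
          (sup_le Ideal.mul_le_right ((Ideal.span_singleton_le_iff_mem _).mpr hmn))
      · calc I = I * (Ideal.span {(m : 𝓞 K)} ⊔ Ideal.span {(n : 𝓞 K)}) := by
              rw [(coprime_span_natCast K h).sup_eq, Ideal.mul_top]
          _ ≤ _ := by
              rw [Ideal.mul_sup, mul_comm I (Ideal.span {(m : 𝓞 K)})]
              exact sup_le (Ideal.mul_mono le_sup_right le_sup_left)
                (Ideal.mul_mono le_sup_left le_sup_right)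
    have hN : Ideal.absNorm (I ⊔ Ideal.span {(m : 𝓞 K)}) *
        Ideal.absNorm (I ⊔ Ideal.span {(n : 𝓞 K)}) = m * n := by rw [← map_mul, hprod, hI]
    have hdm : ∀ (k : ℕ), Ideal.absNorm (I ⊔ Ideal.span {(k : 𝓞 K)}) ∣
        k ^ Module.finrank ℤ (𝓞 K) := fun k => absNorm_dvd_natCast_pow K
      (Ideal.mem_sup_right (Ideal.mem_span_singleton_self _))
    have h1 : Ideal.absNorm (I ⊔ Ideal.span {(m : 𝓞 K)}) ∣ m :=
      ((h.pow_left _).coprime_dvd_left (hdm m)).dvd_of_dvd_mul_right (hN ▸ dvd_mul_right _ _)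
    have h2 : Ideal.absNorm (I ⊔ Ideal.span {(n : 𝓞 K)}) ∣ n :=
      ((h.symm.pow_left _).coprime_dvd_left (hdm n)).dvd_of_dvd_mul_left (hN ▸ dvd_mul_left _ _)
    refine ⟨(⟨_, ?_⟩, ⟨_, ?_⟩), Subtype.ext hprod⟩
    · refine Nat.dvd_antisymm h1 ?_
      exact ((h.coprime_dvd_right h2)).dvd_of_dvd_mul_right (hN ▸ dvd_mul_right _ _)
    · refine Nat.dvd_antisymm h2 ?_
      exact ((h.symm.coprime_dvd_right h1)).dvd_of_dvd_mul_left (hN ▸ dvd_mul_left _ _)

theorem card_normalizedFactors_le {I : Ideal (𝓞 K)} {p e : ℕ} (hp : p.Prime)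
    (hI : Ideal.absNorm I = p ^ e) :
    Multiset.card (normalizedFactors I) ≤ e := by
  have hI0 : I ≠ ⊥ := fun h => (pow_pos hp.pos e).ne' (by rw [← hI, h, Ideal.absNorm_bot])
  refine (Nat.pow_le_pow_iff_right hp.one_lt).mp ?_
  calc p ^ Multiset.card (normalizedFactors I)
      = p ^ Multiset.card ((normalizedFactors I).map Ideal.absNorm) := by rw [Multiset.card_map]
    _ ≤ ((normalizedFactors I).map Ideal.absNorm).prod := Multiset.pow_card_le_prod fun x hx => by
        obtain ⟨P, hP, rfl⟩ := Multiset.mem_map.mp hx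
        obtain ⟨hPp, hPI⟩ := (Ideal.mem_normalizedFactors_iff hI0).mp hP
        have hd : Ideal.absNorm P ∣ p ^ e := hI ▸ Ideal.absNorm_dvd_absNorm_of_le hPI
        obtain ⟨j, -, hj⟩ := (Nat.dvd_prime_pow hp).mp hd
        rw [hj]
        refine Nat.le_self_pow (fun hj0 => hPp.ne_top ?_) p
        rw [← Ideal.absNorm_eq_one_iff, hj, hj0, pow_zero]
    _ = Ideal.absNorm I := by
        rw [← map_multiset_prod, Ideal.prod_normalizedFactors_eq_self hI0]
    _ = p ^ e := hI

open scoped Classical in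
theorem idealCount_prime_pow_le {p : ℕ} (hp : p.Prime) (e : ℕ) :
    idealCount K (p ^ e) ≤ (e + 1) ^ Module.finrank ℤ (𝓞 K) := by
  have hspan : Ideal.span {(p : 𝓞 K)} ≠ ⊥ := by
    simp [hp.ne_zero]
  let T := (normalizedFactors (Ideal.span {(p : 𝓞 K)})).toFinset
  have hT : T.card ≤ Module.finrank ℤ (𝓞 K) :=
    (Multiset.toFinset_card_le _).trans
      (card_normalizedFactors_le K hp (Ideal.absNorm_span_natCast p))
  have hne : ∀ I : Ideal (𝓞 K), Ideal.absNorm I = p ^ e → I ≠ ⊥ :=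
    fun I hI h => (pow_pos hp.pos e).ne' (by rw [← hI, h, Ideal.absNorm_bot])
  have hmem : ∀ I : Ideal (𝓞 K), Ideal.absNorm I = p ^ e → ∀ P ∈ normalizedFactors I, P ∈ T := by
    intro I hI P hP
    obtain ⟨hPp, hPI⟩ := (Ideal.mem_normalizedFactors_iff (hne I hI)).mp hP
    rw [Multiset.mem_toFinset, Ideal.mem_normalizedFactors_iff hspan]
    refine ⟨hPp, (Ideal.span_singleton_le_iff_mem _).mpr (hPp.mem_of_pow_mem e ?_)⟩
    exact hPI (by simpa [hI] using Ideal.absNorm_mem I)
  let F : {I : Ideal (𝓞 K) // Ideal.absNorm I = p ^ e} → (T → Fin (e + 1)) := fun I P =>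
    ⟨(normalizedFactors I.1).count P.1,
      Nat.lt_succ_of_le ((Multiset.count_le_card _ _).trans (card_normalizedFactors_le K hp I.2))⟩
  have hF : Function.Injective F := by
    intro I J hIJ
    apply Subtype.ext
    rw [← Ideal.prod_normalizedFactors_eq_self (hne _ I.2),
      ← Ideal.prod_normalizedFactors_eq_self (hne _ J.2)]
    congr 1
    ext P
    by_cases hP : P ∈ T
    · exact congrArg Fin.val (congrFun hIJ ⟨P, hP⟩)
    · rw [Multiset.count_eq_zero.mpr fun h => hP (hmem _ I.2 P h),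
        Multiset.count_eq_zero.mpr fun h => hP (hmem _ J.2 P h)]
  calc idealCount K (p ^ e) ≤ Nat.card (T → Fin (e + 1)) := Nat.card_le_card_of_injective F hF
    _ = (e + 1) ^ T.card := by simp
    _ ≤ _ := Nat.pow_le_pow_right e.succ_pos hT

end FermatAgent.GalRep
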