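import Fermat.Agent.RT.Frobenius
import Fermat.Agent.GalRep.Density.IdealCount

/-!
For almost all primes `p`, the prime ideals of norm `p` of a number field correspond to the
embeddings into `ℚ̄` fixed by a Frobenius element at a place over `p`.
-/

set_option autoImplicit false

open scoped Pointwise
open Polynomial

namespace FermatAgent.GalRep

noncomputable section

local notation "Qb" => AlgebraicClosure ℚ
local notation "GQ" => AlgebraicClosure ℚ ≃ₐ[ℚ] AlgebraicClosure ℚ
local notation "ZB" => integralClosure ℤ (AlgebraicClosure ℚ)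

open FermatAgent.RT (centre intClosureToPlace natCast_mem_centre intCast_mem_centre_iff)

attribute [local instance] FermatAgent.RT.isGalois_algClosureRat

theorem frobenius_smul_sub_pow_mem {A : ValuationSubring Qb} {p : ℕ} {τ : GQ}
    (hτ : A.IsFrobeniusAt τ p) (b : ZB) : τ • b - b ^ p ∈ centre A := by
  have h := hτ.smul_residue_eq (IsLocalRing.residue A (intClosureToPlace A b))
  rw [← IsLocalRing.ResidueField.residue_smul, ← map_pow, ← sub_eq_zero, ← map_sub,
    IsLocalRing.residue_eq_zero_iff] at h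
  show intClosureToPlace A (τ • b - b ^ p) ∈ IsLocalRing.maximalIdeal A
  rw [map_sub, map_pow]
  exact h

theorem finite_setOf_mem_centre {δ : ZB} (hδ : δ ≠ 0) :
    {p : ℕ | p.Prime ∧ ∃ A : ValuationSubring Qb, A.LiesOverPrime p ∧ δ ∈ centre A}.Finite := by
  have hint : IsIntegral ℤ δ := by
    convert (integralClosure.AlgebraIsIntegral (R := ℤ) (A := Qb)).isIntegral δ
  obtain ⟨c, hcmem, hc0⟩ := Submodule.exists_mem_ne_zero_of_ne_bot
    (Ideal.comap_ne_bot_of_integral_mem hδ (Ideal.mem_span_singleton_self δ) hint)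
  refine c.natAbs.divisors.finite_toSet.subset ?_
  rintro p ⟨hp, A, hA, hmem⟩
  obtain ⟨q, hq⟩ := Ideal.mem_span_singleton.mp hcmem
  have h1 : ((c : ℤ) : ZB) ∈ centre A := by
    rw [← eq_intCast (algebraMap ℤ ZB), hq]
    exact Ideal.mul_mem_right _ _ hmem
  have h2 := (intCast_mem_centre_iff hp hA c).mp h1
  rw [Finset.mem_coe, Nat.mem_divisors]
  exact ⟨Int.natCast_dvd.mp h2, by simpa using hc0⟩

theorem exists_intCast_sub_mem_of_pow_sub_mem {A : ValuationSubring Qb} {p : ℕ} (hp : p.Prime)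
    (hA : A.LiesOverPrime p) {y : ZB} (hy : y ^ p - y ∈ centre A) :
    ∃ m : ℤ, y - m ∈ centre A := by
  classical
  let F := ZB ⧸ centre A
  have : Fact p.Prime := ⟨hp⟩
  have : CharP F p := ⟨fun m => by
    rw [← map_natCast (Ideal.Quotient.mk (centre A)), Ideal.Quotient.eq_zero_iff_mem]
    simpa [Int.natCast_dvd_natCast] using intCast_mem_centre_iff hp hA (m : ℤ)⟩
  let φ : ZMod p →+* F := ZMod.castHom dvd_rfl F
  let f : F[X] := X ^ p - X
  have hfdeg : f.natDegree = p := by
    rw [natDegree_sub_eq_left_of_natDegree_lt (by simpa using hp.one_lt), natDegree_X_pow]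
  have hf : f ≠ 0 := fun h => hp.ne_zero (by rw [← hfdeg, h, natDegree_zero])
  let T : Finset F := Finset.univ.image φ
  have hTcard : T.card = p := by
    rw [Finset.card_image_of_injective _ φ.injective, Finset.card_univ, ZMod.card]
  have hmem : Ideal.Quotient.mk (centre A) y ∈ T := by
    by_contra hno
    have hsub : (insert (Ideal.Quotient.mk (centre A) y) T).val ⊆ f.roots := by
      intro z hz
      rw [Finset.mem_val, Finset.mem_insert] at hz
      rw [mem_roots hf, IsRoot.def]
      rcases hz with rfl | hz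
      · simp only [f, eval_sub, eval_pow, eval_X]
        rw [← map_pow, ← map_sub, Ideal.Quotient.eq_zero_iff_mem]
        exact hy
      · obtain ⟨a, -, rfl⟩ := Finset.mem_image.mp hz
        simp only [f, eval_sub, eval_pow, eval_X]
        rw [← map_pow, ← map_sub, ZMod.pow_card, sub_self, map_zero]
    have hle := Polynomial.card_le_degree_of_subset_roots hsub
    rw [Finset.card_insert_of_notMem hno, hTcard,
      hfdeg] at hle
    omega
  obtain ⟨a, -, ha⟩ := Finset.mem_image.mp hmem
  obtain ⟨m, rfl⟩ := ZMod.intCast_surjective a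
  refine ⟨m, ?_⟩
  rw [← Ideal.Quotient.eq_zero_iff_mem, map_sub, map_intCast, sub_eq_zero, ← ha, map_intCast]

variable {K : Type*} [Field K] [NumberField K]

open NumberField

/-- An embedding restricted to the rings of integers. -/
def embZB (e : K →ₐ[ℚ] Qb) : 𝓞 K →+* ZB :=
  (e.toRingHom.comp (algebraMap (𝓞 K) K)).codRestrict (Subalgebra.toSubring ZB) fun x =>
    x.isIntegral_coe.map (e.restrictScalars ℤ)

theorem smul_embZB (g : GQ) (e : K →ₐ[ℚ] Qb) (x : 𝓞 K) :
    g • embZB e x = embZB (g.toAlgHom.comp e) x := Subtype.ext rfl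

theorem algHom_ext_ringOfIntegers {e e' : K →ₐ[ℚ] Qb}
    (h : ∀ i, e (RingOfIntegers.basis K i : K) = e' (RingOfIntegers.basis K i : K)) : e = e' := by
  apply AlgHom.toLinearMap_injective
  refine (integralBasis K).ext fun i => ?_
  rw [integralBasis_apply]
  exact h i

theorem exists_smul_centre_eq {A : ValuationSubring Qb} (Q : Ideal ZB) [Q.IsPrime]
    (h : (centre A).under ℤ = Q.under ℤ) : ∃ g : GQ, Q = g • centre A := by
  let : TopologicalSpace ZB := ⊥
  have : DiscreteTopology ZB := ⟨rfl⟩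
  have : ContinuousSMul GQ ZB := by
    rw [continuousSMul_iff_stabilizer_isOpen]
    intro b
    have hfin : FiniteDimensional ℚ (IntermediateField.adjoin ℚ {(b : Qb)}) :=
      IntermediateField.adjoin.finiteDimensional
        (FermatAgent.RT.isGalois_algClosureRat.to_normal.isIntegral _)
    refine Subgroup.isOpen_mono ?_
      (IntermediateField.fixingSubgroup_isOpen (IntermediateField.adjoin ℚ {(b : Qb)}))
    intro σ hσ
    exact Subtype.ext (hσ ⟨b, IntermediateField.mem_adjoin_simple_self ℚ (b : Qb)⟩)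
  exact Algebra.IsInvariant.exists_smul_of_under_eq_of_profinite (centre A) Q h

theorem under_int_eq_span {R : Type*} [CommRing R] [Algebra ℤ R] (J : Ideal R) [J.IsPrime] {p : ℕ}
    (hp : p.Prime) (hJ : (p : R) ∈ J) : J.under ℤ = Ideal.span {(p : ℤ)} := by
  have hmax : (Ideal.span {(p : ℤ)}).IsMaximal :=
    ((Ideal.span_singleton_prime (Int.natCast_ne_zero.mpr hp.ne_zero)).mpr
      (Nat.prime_iff_prime_int.mp hp)).isMaximal (by simp [hp.ne_zero])
  refine (hmax.eq_of_le (Ideal.IsPrime.ne_top inferInstance) ?_).symm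
  rw [Ideal.span_singleton_le_iff_mem]
  simpa using hJ

variable (K) in
/-- For almost all `p`, ideals of norm `p` correspond to the embeddings fixed by Frobenius. -/
theorem exists_finite_idealCount_eq :
    ∃ B : Set ℕ, B.Finite ∧ ∀ p : ℕ, p.Prime → p ∉ B → ∀ A : ValuationSubring Qb,
      A.LiesOverPrime p → ∀ τ : GQ, A.IsFrobeniusAt τ p →
        idealCount K p = Nat.card {e : K →ₐ[ℚ] Qb // τ.toAlgHom.comp e = e} := by
  let B : Set ℕ := ⋃ (e : K →ₐ[ℚ] Qb) (e' : K →ₐ[ℚ] Qb) (i : Module.Free.ChooseBasisIndex ℤ (𝓞 K)),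
    {p : ℕ | embZB e (RingOfIntegers.basis K i) - embZB e' (RingOfIntegers.basis K i) ≠ 0 ∧
      p.Prime ∧ ∃ A : ValuationSubring Qb, A.LiesOverPrime p ∧
        embZB e (RingOfIntegers.basis K i) - embZB e' (RingOfIntegers.basis K i) ∈ centre A}
  refine ⟨B, ?_, ?_⟩
  · refine Set.finite_iUnion fun e => Set.finite_iUnion fun e' => Set.finite_iUnion fun i => ?_
    by_cases h : embZB e (RingOfIntegers.basis K i) - embZB e' (RingOfIntegers.basis K i) = 0
    · exact Set.finite_empty.subset fun p hp => hp.1 h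
    · exact (finite_setOf_mem_centre h).subset fun p hp => hp.2
  intro p hp hpB A hA τ hτ
  have hsep : ∀ e e' : K →ₐ[ℚ] Qb,
      (∀ x : 𝓞 K, embZB e x - embZB e' x ∈ centre A) → e = e' := by
    intro e e' h
    refine algHom_ext_ringOfIntegers fun i => ?_
    by_contra hne
    refine hpB (Set.mem_iUnion.mpr ⟨e, Set.mem_iUnion.mpr ⟨e', Set.mem_iUnion.mpr ⟨i, ?_, hp, A,
      hA, h _⟩⟩⟩)
    intro h0
    exact hne (congrArg Subtype.val (sub_eq_zero.mp h0))
  have hτQ : ∀ z ∈ centre A, τ • z ∈ centre A := by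
    intro z hz
    have := add_mem (frobenius_smul_sub_pow_mem hτ z)
      (Ideal.pow_mem_of_mem (centre A) hz p hp.pos)
    rwa [sub_add_cancel] at this
  let P : (K →ₐ[ℚ] Qb) → Ideal (𝓞 K) := fun e => (centre A).comap (embZB e)
  have hPp : ∀ e, (p : 𝓞 K) ∈ P e := fun e => by
    show embZB e p ∈ centre A
    rw [map_natCast]
    exact natCast_mem_centre hA
  have hint : ∀ e, τ.toAlgHom.comp e = e → ∀ x : 𝓞 K, ∃ m : ℤ, x - m ∈ P e := by
    intro e he x
    have h := frobenius_smul_sub_pow_mem hτ (embZB e x)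
    rw [smul_embZB, he, ← neg_sub, neg_mem_iff] at h
    obtain ⟨m, hm⟩ := exists_intCast_sub_mem_of_pow_sub_mem hp hA h
    exact ⟨m, show embZB e (x - m) ∈ centre A by rwa [map_sub, map_intCast]⟩
  have : Fact p.Prime := ⟨hp⟩
  have hnorm : ∀ e, τ.toAlgHom.comp e = e → Ideal.absNorm (P e) = p := by
    intro e he
    have hPe : (P e).IsPrime := Ideal.IsPrime.comap _
    have : CharP (𝓞 K ⧸ P e) p := ⟨fun x => by
      rw [← map_natCast (Ideal.Quotient.mk (P e)), Ideal.Quotient.eq_zero_iff_mem]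
      have h := SetLike.ext_iff.mp (under_int_eq_span (P e) hp (hPp e)) (x : ℤ)
      rw [Ideal.mem_span_singleton, Int.natCast_dvd_natCast] at h
      simpa using h⟩
    rw [Ideal.absNorm_apply, Submodule.cardQuot_apply]
    refine (Nat.card_congr (Equiv.ofBijective (ZMod.castHom dvd_rfl (𝓞 K ⧸ P e))
      ⟨RingHom.injective _, fun z => ?_⟩)).symm.trans (Nat.card_zmod p)
    obtain ⟨x, rfl⟩ := Ideal.Quotient.mk_surjective z
    obtain ⟨m, hm⟩ := hint e he x
    refine ⟨m, ?_⟩
    rw [map_intCast, eq_comm, ← map_intCast (Ideal.Quotient.mk (P e)), Ideal.Quotient.eq]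
    exact hm
  refine (Nat.card_congr (Equiv.ofBijective
    (fun e : {e : K →ₐ[ℚ] Qb // τ.toAlgHom.comp e = e} =>
      (⟨P e.1, hnorm e.1 e.2⟩ : {I : Ideal (𝓞 K) // Ideal.absNorm I = p})) ⟨?_, ?_⟩)).symm
  · rintro ⟨e, he⟩ ⟨e', he'⟩ heq
    have hP : P e = P e' := congrArg Subtype.val heq
    refine Subtype.ext (hsep e e' fun x => ?_)
    obtain ⟨m, hm⟩ := hint e he x
    have hm' : x - m ∈ P e' := hP ▸ hm
    have hm1 : embZB e x - m ∈ centre A := by simpa [P, Ideal.mem_comap] using hm
    have hm2 : embZB e' x - m ∈ centre A := by simpa [P, Ideal.mem_comap] using hm'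
    simpa using sub_mem hm1 hm2
  · rintro ⟨I, hI⟩
    have hIprime : I.IsPrime := Ideal.isPrime_of_irreducible_absNorm (hI.symm ▸ hp)
    have hpI : (p : 𝓞 K) ∈ I := hI ▸ Ideal.absNorm_mem I
    let e₀ : K →ₐ[ℚ] Qb := IsAlgClosed.lift
    let : Algebra (𝓞 K) ZB := (embZB e₀).toAlgebra
    have : IsScalarTower ℤ (𝓞 K) ZB :=
      IsScalarTower.of_algebraMap_eq fun m => (map_intCast (embZB e₀) m).symm
    have : Algebra.IsIntegral (𝓞 K) ZB :=
      ⟨fun z => ((integralClosure.AlgebraIsIntegral (R := ℤ)).isIntegral z).tower_top⟩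
    obtain ⟨Q, hQ, hQI⟩ := Ideal.exists_ideal_over_prime_of_isIntegral_of_isDomain (S := ZB) I (by
      rw [(RingHom.injective_iff_ker_eq_bot _).mp
        (fun x y h => RingOfIntegers.ext (e₀.injective (congrArg Subtype.val h)))]
      exact bot_le)
    have hpQ : (p : ZB) ∈ Q := by
      rw [← map_natCast (algebraMap (𝓞 K) ZB), ← Ideal.mem_comap, hQI]
      exact hpI
    obtain ⟨g, hg⟩ := exists_smul_centre_eq (A := A) Q
      (by rw [under_int_eq_span (centre A) hp (natCast_mem_centre hA), under_int_eq_span Q hp hpQ])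
    let e : K →ₐ[ℚ] Qb := g⁻¹.toAlgHom.comp e₀
    have hPe : P e = I := by
      ext x
      rw [← hQI, hg, Ideal.mem_comap, Ideal.mem_comap, Ideal.mem_pointwise_smul_iff_inv_smul_mem,
        RingHom.algebraMap_toAlgebra, smul_embZB]
    have hfix : τ.toAlgHom.comp e = e := by
      refine hsep _ _ fun x => ?_
      have : Finite (𝓞 K ⧸ I) := (Ideal.absNorm_ne_zero_iff I).mp (by rw [hI]; exact hp.ne_zero)
      let := Fintype.ofFinite (𝓞 K ⧸ I)
      have hcard : Fintype.card (𝓞 K ⧸ I) = p := by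
        rw [← Nat.card_eq_fintype_card, ← Submodule.cardQuot_apply, ← Ideal.absNorm_apply, hI]
      have : CharP (𝓞 K ⧸ I) p := charP_of_card_eq_prime hcard
      obtain ⟨a, ha⟩ := (ZMod.castHom_bijective (𝓞 K ⧸ I) hcard).2 (Ideal.Quotient.mk I x)
      obtain ⟨m, rfl⟩ := ZMod.intCast_surjective a
      rw [map_intCast, ← map_intCast (Ideal.Quotient.mk I), eq_comm, Ideal.Quotient.eq, ← hPe] at ha
      have h1 : embZB e x - m ∈ centre A := by simpa [P, Ideal.mem_comap] using ha
      have h2 := hτQ _ h1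
      have hm : τ • (m : ZB) = (m : ZB) := Subtype.ext (by
        show τ ((m : ZB) : Qb) = ((m : ZB) : Qb)
        simp)
      rw [smul_sub, hm, smul_embZB] at h2
      simpa using sub_mem h2 h1
    exact ⟨⟨e, hfix⟩, Subtype.ext hPe⟩

end

end FermatAgent.GalRep
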