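import Mathlib

/-!
Burnside's theorem, and Brauer–Nesbitt/Carayol for matrix representations over a local ring:
a representation spanning the whole matrix algebra is determined by its traces.
-/

set_option autoImplicit false

namespace FermatAgent.GalRep

open Matrix

/-- Burnside: an irreducible representation over an algebraically closed field spans all
endomorphisms. -/
theorem burnside_span_range_eq_top {K : Type*} [Field K] [IsAlgClosed K] {V : Type*}
    [AddCommGroup V] [Module K V] [FiniteDimensional K V] [Nontrivial V] {G : Type*} [Monoid G]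
    (r : G →* Module.End K V)
    (hirr : ∀ W : Submodule K V, (∀ g : G, ∀ x ∈ W, r g x ∈ W) → W = ⊥ ∨ W = ⊤) :
    Submodule.span K (Set.range r) = ⊤ := by
  let B : Subalgebra K (Module.End K V) := Algebra.adjoin K (Set.range r)
  have : IsSimpleModule B V := by
    rw [isSimpleModule_iff]
    have : Nontrivial (Submodule B V) := Submodule.nontrivial_iff B |>.mpr inferInstance
    refine ⟨fun W => ?_⟩
    have hW := hirr (W.restrictScalars K) fun g x hx =>
      W.smul_mem ⟨r g, Algebra.subset_adjoin ⟨g, rfl⟩⟩ hx
    simpa using hW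
  have hK := IsSimpleModule.algebraMap_end_bijective_of_isAlgClosed (A := B) (V := V) K
  have : Module.Finite (Module.End B V) V := Module.Finite.of_restrictScalars_finite K _ V
  rw [eq_top_iff]
  intro f _
  let f' : Module.End (Module.End B V) V :=
    { toFun := f
      map_add' := f.map_add
      map_smul' := fun g v => by
        obtain ⟨c, rfl⟩ := hK.2 g
        show f (c • v) = c • f v
        exact map_smul f c v }
  obtain ⟨b, hb⟩ := Module.Finite.toModuleEnd_moduleEnd_surjective (R := B) f'
  have hfb : f = (b : Module.End K V) :=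
    LinearMap.ext fun v => (LinearMap.congr_fun hb v).symm
  have hb' : (b : Module.End K V) ∈ (Algebra.adjoin K (Set.range r)).toSubmodule := b.2
  rw [Algebra.adjoin_eq_span, ← MonoidHom.coe_mrange, Submonoid.closure_eq,
    MonoidHom.coe_mrange] at hb'
  exact hfb ▸ hb'

variable {R : Type*} [CommRing R] {G : Type*} [Monoid G] {n : Type*} [Fintype n] [DecidableEq n]

/-- If `a` spans the matrix algebra and `b` has the same traces, there is a unital multiplicative
linear map carrying `a` to `b`, and it is surjective. -/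
theorem exists_linearMap_of_trace_eq (a b : G →* Matrix n n R)
    (ha : Submodule.span R (Set.range a) = ⊤) (htr : ∀ g, (a g).trace = (b g).trace) :
    ∃ φ : Matrix n n R →ₗ[R] Matrix n n R,
      (∀ g, φ (a g) = b g) ∧ (∀ x y, φ (x * y) = φ x * φ y) ∧ Function.Surjective φ := by
  let A : Submodule R (Matrix n n R × Matrix n n R) := Submodule.span R (Set.range (a.prod b))
  have hA : ∀ p ∈ A, ∀ q ∈ A, p * q ∈ A := by
    intro p hp q hq
    induction hp, hq using Submodule.span_induction₂ with
    | mem_mem x y hx hy =>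
      obtain ⟨g, rfl⟩ := hx
      obtain ⟨g', rfl⟩ := hy
      exact Submodule.subset_span ⟨g * g', map_mul _ _ _⟩
    | zero_left => simp
    | zero_right => simp
    | add_left x y z _ _ _ h1 h2 => rw [add_mul]; exact add_mem h1 h2
    | add_right x y z _ _ _ h1 h2 => rw [mul_add]; exact add_mem h1 h2
    | smul_left c x y _ _ h1 => rw [smul_mul_assoc]; exact A.smul_mem c h1
    | smul_right c x y _ _ h1 => rw [mul_smul_comm]; exact A.smul_mem c h1
  have htrA : ∀ p ∈ A, p.1.trace = p.2.trace := by
    intro p hp
    induction hp using Submodule.span_induction with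
    | mem x hx => obtain ⟨g, rfl⟩ := hx; exact htr g
    | zero => simp
    | add x y _ _ h1 h2 => simp [h1, h2]
    | smul c x _ h => simp [h]
  have hfst : ∀ x, ∃ y, (x, y) ∈ A := by
    intro x
    have hx : x ∈ A.map (LinearMap.fst R _ _) := by
      rw [Submodule.map_span, ← Set.range_comp]
      show x ∈ Submodule.span R (Set.range a)
      rw [ha]
      trivial
    obtain ⟨⟨_, y⟩, hy, rfl⟩ := hx
    exact ⟨y, hy⟩
  choose f hf using fun p : n × n => hfst (Matrix.single p.1 p.2 (1 : R))
  let L : (n × n → R) →ₗ[R] Matrix n n R :=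
    { toFun := fun c => ∑ p, c p • f p
      map_add' := fun c c' => by simp [add_smul, Finset.sum_add_distrib]
      map_smul' := fun r c => by simp [Finset.smul_sum, mul_smul] }
  let Ψ : Matrix n n R →ₗ[R] (n × n → R) :=
    { toFun := fun w p => (w * f (p.2, p.1)).trace
      map_add' := fun w w' => by ext p; simp [add_mul]
      map_smul' := fun r w => by ext p; simp }
  have hΨL : ∀ c, Ψ (L c) = c := by
    intro c
    ext ⟨i, j⟩
    show ((∑ p, c p • f p) * f (j, i)).trace = c (i, j)
    rw [Finset.sum_mul, Matrix.trace_sum]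
    have hterm : ∀ p : n × n,
        ((c p • f p) * f (j, i)).trace = if p = (i, j) then c p else 0 := by
      intro p
      have h1 := htrA _ (hA _ (hf p) _ (hf (j, i)))
      rw [smul_mul_assoc, Matrix.trace_smul, smul_eq_mul,
        show (f p * f (j, i)).trace =
          (Matrix.single p.1 p.2 (1 : R) * Matrix.single j i (1 : R)).trace from h1.symm]
      obtain ⟨k, l⟩ := p
      by_cases hlj : l = j
      · subst hlj
        rw [Matrix.single_mul_single_same, mul_one]
        by_cases hki : k = i
        · subst hki; simp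
        · rw [Matrix.trace_single_eq_of_ne _ _ _ hki]; simp [hki]
      · rw [Matrix.single_mul_single_of_ne _ _ _ _ hlj]; simp [hlj]
    rw [Finset.sum_congr rfl fun p _ => hterm p, Finset.sum_ite_eq']
    simp
  let e : (n × n → R) ≃ₗ[R] Matrix n n R :=
    (LinearEquiv.curry R R n n).trans (Matrix.ofLinearEquiv R)
  have hΨinj : Function.Injective Ψ := by
    have h2 : Function.Injective (e.toLinearMap ∘ₗ Ψ) :=
      OrzechProperty.injective_of_surjective_endomorphism _
        (e.surjective.comp fun c => ⟨L c, hΨL c⟩)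
    exact fun x y h => h2 (congrArg e h)
  have hLsurj : Function.Surjective L := fun w => ⟨Ψ w, hΨinj (hΨL _)⟩
  have hker : ∀ y, ((0 : Matrix n n R), y) ∈ A → y = 0 := by
    intro y hy
    apply hΨinj
    rw [map_zero]
    ext p
    have h1 := htrA _ (hA _ hy _ (hf (p.2, p.1)))
    exact h1.symm.trans (by simp)
  choose φ hφ using hfst
  have huniq : ∀ x y, (x, y) ∈ A → φ x = y := fun x y hxy => by
    have := hker (φ x - y) (by simpa using sub_mem (hφ x) hxy)
    exact sub_eq_zero.mp this
  refine ⟨⟨⟨φ, fun x y => huniq _ _ (add_mem (hφ x) (hφ y))⟩,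
    fun c x => huniq _ _ (A.smul_mem c (hφ x))⟩,
    fun g => huniq _ _ (Submodule.subset_span ⟨g, rfl⟩),
    fun x y => huniq _ _ (hA _ (hφ x) _ (hφ y)), fun w => ?_⟩
  obtain ⟨c, rfl⟩ := hLsurj w
  refine ⟨∑ p, c p • Matrix.single p.1 p.2 1, huniq _ _ ?_⟩
  have := Submodule.sum_mem A fun p (_ : p ∈ Finset.univ) => A.smul_mem (c p) (hf p)
  convert this using 1
  simp [L, Prod.ext_iff, Prod.fst_sum, Prod.snd_sum]

/-- Carayol / Brauer–Nesbitt in matrix form. -/
theorem exists_conj_of_trace_eq [IsLocalRing R] [Nonempty n] (a b : G →* Matrix n n R)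
    (ha : Submodule.span R (Set.range a) = ⊤) (htr : ∀ g, (a g).trace = (b g).trace) :
    ∃ P : Matrix n n R, IsUnit P ∧ ∀ g, P * a g = b g * P := by
  obtain ⟨φ, hφa, hφmul, hφs⟩ := exists_linearMap_of_trace_eq a b ha htr
  have hone : φ 1 = 1 := by
    have := hφa 1
    rwa [a.map_one, b.map_one] at this
  obtain ⟨i₀⟩ := ‹Nonempty n›
  let E : n → n → Matrix n n R := fun i j => Matrix.single i j 1
  obtain ⟨j, l, hu⟩ : ∃ j l, IsUnit (φ (E i₀ i₀) l j) := by
    by_contra hno
    simp only [not_exists] at hno
    have hmem : ∀ x i j, φ x i j ∈ IsLocalRing.maximalIdeal R := by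
      intro x i j
      rw [Matrix.matrix_eq_sum_single x]
      simp only [map_sum, Matrix.sum_apply]
      refine sum_mem fun k _ => sum_mem fun k' _ => ?_
      have h1 : Matrix.single k k' (x k k') = x k k' • (E k i₀ * E i₀ i₀ * E i₀ k') := by
        simp [E]
      rw [h1, map_smul, hφmul, hφmul, Matrix.smul_apply, smul_eq_mul]
      refine Ideal.mul_mem_left _ _ ?_
      simp only [Matrix.mul_apply, Finset.sum_mul]
      exact sum_mem fun u _ => sum_mem fun u' _ =>
        Ideal.mul_mem_right _ _ (Ideal.mul_mem_left _ _ (hno _ _))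
    have := hmem 1 i₀ i₀
    rw [hone, Matrix.one_apply_eq] at this
    exact this isUnit_one
  -- columns of `P` are `φ (E i i₀) * (φ (E i₀ i₀))` applied to the basis vector `j`
  let P : Matrix n n R := Matrix.of fun r c => φ (E c i₀) r j
  obtain ⟨u, hu⟩ := hu
  let Q : Matrix n n R := Matrix.of fun c r => (↑u⁻¹ : R) * φ (E i₀ c) l r
  have hQP : Q * P = 1 := by
    ext c c'
    simp only [Matrix.mul_apply, Q, P, Matrix.of_apply, mul_assoc, ← Finset.mul_sum]
    rw [← Matrix.mul_apply, ← hφmul]
    by_cases hcc : c = c'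
    · subst hcc
      rw [show E i₀ c * E c i₀ = E i₀ i₀ by simp [E], ← hu, Units.inv_mul, Matrix.one_apply_eq]
    · rw [show E i₀ c * E c' i₀ = 0 by simp [E, hcc], map_zero, Matrix.zero_apply, mul_zero,
        Matrix.one_apply_ne hcc]
  refine ⟨P, IsUnit.of_mul_eq_one_right _ hQP, fun g => ?_⟩
  ext r c
  have h1 : a g * E c i₀ = ∑ k, a g k c • E k i₀ := by
    ext x y
    simp only [E, Matrix.mul_apply, Matrix.sum_apply, Matrix.smul_apply, Matrix.single_apply]
    by_cases hy : i₀ = y <;> simp [hy, eq_comm]
  have h2 := congrArg (fun M => φ M r j) h1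
  simp only [hφmul, hφa, map_sum, map_smul, Matrix.sum_apply, Matrix.smul_apply, smul_eq_mul] at h2
  simp only [Matrix.mul_apply, P, Matrix.of_apply]
  rw [Matrix.mul_apply] at h2
  rw [h2]
  exact Finset.sum_congr rfl fun k _ => mul_comm _ _

end FermatAgent.GalRep
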